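/-
Project C1 (S34 + S35), middle layer, architect helper23.

Level `M * q`, `q` a prime not dividing `M`.  Definitions:
* `ALData M q`  : the Atkin-Lehner involution `w` of `FN (M * q)` and the norm `nm` to `FN M`
                  (abstract interface; everything is pinned down by `q`-expansions);
* `Cong1 A N u` : `u ≡ 1` for the Gauss valuation attached to `A` (same shape as in `GAL.KL`);
* `Kinf`, `Tor` : the subgroups of the Kummer model `W (M * q) n` of classes `≡ 1` at `v_∞`,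
                  resp. at `v_∞` and at `v_0 = v_∞ ∘ w`;
* `NOD1`, `NOD2`: THE INTERFACE with the nodal core.
-/
import Fermat.Agent.GAL.E.HeckeOp
import Fermat.Prelude.Def_EllipticCurve_FrobeniusTrace

set_option autoImplicit false

noncomputable section

namespace Fermat.Agent.C1

open ModularCurve AlgebraicCurve Fermat.Agent.S24 Fermat.Agent.S24.B Fermat.Agent.GAL
  Fermat.Agent.GAL.E

/-- The Atkin-Lehner involution at `q` and the norm along `α : X₀(M q) → X₀(M)`. -/
structure ALData (M q : ℕ) [NeZero M] [NeZero q] where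
  /-- the Atkin-Lehner involution -/
  w : FN (M * q) →ₐ[Kbar] FN (M * q)
  w_al : ∀ x : FN M, w (heckeAlphaBar Kbar M q x) = heckeBetaBar Kbar M q x
  w_be : ∀ x : FN M, w (heckeBetaBar Kbar M q x) = heckeAlphaBar Kbar M q x
  isKum_w : ∀ (n : ℕ) (u : FN (M * q)), IsKum (M * q) n u → IsKum (M * q) n (w u)
  /-- the norm along `α` -/
  nm : FN (M * q) →* FN M
  /-- `(nm u)(Q^q) = u(Q^q) ∏_b (w u)(ζ^b Q)` -/
  qExpand_nm : ∀ u : FN (M * q), qExpand Kbar q ((nm u : FN M) : LaurentSeries Kbar) =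
      qExpand Kbar q (u : LaurentSeries Kbar) *
        ∏ b ∈ Finset.range q, twist (zetaK q ^ b) ((w u : FN (M * q)) : LaurentSeries Kbar)
  isKum_nm : ∀ (n : ℕ) (u : FN (M * q)), IsKum (M * q) n u → IsKum M n (nm u)
  isKum_al : ∀ (n : ℕ) (x : FN M), IsKum M n x → IsKum (M * q) n (heckeAlphaBar Kbar M q x)

/-- `u ≡ 1` for the Gauss valuation of `FN N ⊆ ℚ̄((Q))` attached to `A`: `u = P / Q` with
`A`-integral series `P`, `Q` having the same nonzero reduction. -/
def Cong1 (A : ValuationSubring Kbar) (N : ℕ) (u : FN N) : Prop :=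
  ∃ (P Q : LaurentSeries A) (hP : incl A P ∈ modularFunctionFieldBar N)
    (hQ : incl A Q ∈ modularFunctionFieldBar N),
    red A P = red A Q ∧ red A Q ≠ 0 ∧ u = (⟨incl A P, hP⟩ : FN N) / ⟨incl A Q, hQ⟩

/-- A homomorphism of unit groups mapping Kummer units to Kummer units induces a homomorphism of
Kummer models (two levels). -/
def mapW₂ {N N' n : ℕ} (f : (FN N)ˣ →* (FN N')ˣ) (hf : ∀ u ∈ kum N n, f u ∈ kum N' n) :
    W N n →+ W N' n :=
  MonoidHom.toAdditive <|
    QuotientGroup.map _ _ ((f.comp (kum N n).subtype).codRestrict (kum N' n) fun u => hf u u.2) (by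
      rintro ⟨u, hu⟩ ⟨w, hw⟩
      refine ⟨f w, ?_⟩
      show f w ^ n = f u
      rw [← map_pow]
      exact congrArg f hw)

theorem mapW₂_cls {N N' n : ℕ} (f : (FN N)ˣ →* (FN N')ˣ) (hf : ∀ u ∈ kum N n, f u ∈ kum N' n)
    (u : kum N n) : mapW₂ f hf (cls u) = cls ⟨f u, hf u u.2⟩ := rfl

namespace ALData

variable {M q : ℕ} [NeZero M] [NeZero q] (D : ALData M q) (n : ℕ)

/-- `w` on the Kummer model. -/
def wW : W (M * q) n →+ W (M * q) n :=
  mapW₂ (Units.map ((D.w : FN (M * q) →+* FN (M * q)) : FN (M * q) →* FN (M * q)))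
    fun u hu => D.isKum_w n u hu

/-- the norm `α_*` on the Kummer model. -/
def nmW : W (M * q) n →+ W M n := mapW₂ (Units.map D.nm) fun u hu => D.isKum_nm n u hu

/-- the pull-back `α^*` on the Kummer model. -/
def alW : W M n →+ W (M * q) n :=
  mapW₂ (Units.map ((heckeAlphaBar Kbar M q : FN M →+* FN (M * q)) : FN M →* FN (M * q)))
    fun u hu => D.isKum_al n u hu

end ALData

/-- Classes with a representative `≡ 1` at `v_∞` (as a set; it is a subgroup, see `Kinf`). -/
def IsKinf (A : ValuationSubring Kbar) {N n : ℕ} (x : W N n) : Prop :=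
  ∃ u : kum N n, cls u = x ∧ Cong1 A N ((u : (FN N)ˣ) : FN N)

/-- Classes with ONE representative `≡ 1` at `v_∞` and at `v_0 = v_∞ ∘ w`. -/
def IsTor {M q : ℕ} [NeZero M] [NeZero q] (D : ALData M q) (A : ValuationSubring Kbar) {n : ℕ}
    (x : W (M * q) n) : Prop :=
  ∃ u : kum (M * q) n, cls u = x ∧ Cong1 A (M * q) ((u : (FN (M * q))ˣ) : FN (M * q)) ∧
    Cong1 A (M * q) (D.w ((u : (FN (M * q))ˣ) : FN (M * q)))

/-- **Nodal core, part 1**: inertia acts trivially on the toric part (up to the constant `d`, which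
accounts for an auxiliary level). -/
def NOD1 {M q : ℕ} [NeZero M] [NeZero q] (D : ALData M q) (A : ValuationSubring Kbar) (n d : ℕ) :
    Prop :=
  ∀ u : FN (M * q), IsKum (M * q) n u → Cong1 A (M * q) u → Cong1 A (M * q) (D.w u) →
    ∀ τ : GQ, τ ∈ A.inertiaSubgroupIn ℚ →
      ∃ v : FN (M * q), (galF (M * q) τ u) ^ d = u ^ d * v ^ n

/-- **Nodal core, part 2**: a Frobenius lift `σ` satisfies `σ² = q²` on the toric part (up to the
constant `d`). -/
def NOD2 {M q : ℕ} [NeZero M] [NeZero q] (D : ALData M q) (A : ValuationSubring Kbar) (n d : ℕ) :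
    Prop :=
  ∀ u : FN (M * q), IsKum (M * q) n u → Cong1 A (M * q) u → Cong1 A (M * q) (D.w u) →
    ∀ σ : GQ, A.IsFrobeniusAt σ q →
      ∃ v : FN (M * q), (galF (M * q) σ (galF (M * q) σ u)) ^ d = (u ^ (q ^ 2)) ^ d * v ^ n

/-- Stronger form of `NOD2` (`σ = - q w` on the toric part); it implies `NOD2`. -/
def NOD2' {M q : ℕ} [NeZero M] [NeZero q] (D : ALData M q) (A : ValuationSubring Kbar) (n d : ℕ) :
    Prop :=
  ∀ u : FN (M * q), IsKum (M * q) n u → Cong1 A (M * q) u → Cong1 A (M * q) (D.w u) →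
    ∀ σ : GQ, A.IsFrobeniusAt σ q →
      ∃ v : FN (M * q), (galF (M * q) σ u * (D.w u) ^ q) ^ d = v ^ n

/-- **What the nodal core has to deliver.**  The constant `d` must not depend on `A` and `n`. -/
def NodalStatement : Prop :=
  ∀ (M q : ℕ) [NeZero M] [NeZero q], q.Prime → ¬ q ∣ M → ∀ D : ALData M q,
    ∃ d : ℕ, d ≠ 0 ∧ ∀ A : ValuationSubring Kbar, A.LiesOverPrime q → ∀ n : ℕ, ¬ q ∣ n →
      NOD1 D A n d ∧ NOD2 D A n d

/-- Series-level Gauss normalisation: `f = c * (P / Q)` with `A`-integral series `P`, `Q` with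
nonzero reductions and `r = red P / red Q`.  ("`v(f) = v(c)` and `f / c` reduces to `r`".) -/
def RedS (A : ValuationSubring Kbar) (f : LaurentSeries Kbar) (c : Kbar)
    (r : LaurentSeries (IsLocalRing.ResidueField A)) : Prop :=
  c ≠ 0 ∧ ∃ P Q : LaurentSeries A, red A P ≠ 0 ∧ red A Q ≠ 0 ∧
    f * incl A Q = HahnSeries.C c * incl A P ∧ r * red A Q = red A P

end Fermat.Agent.C1

end
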