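/-
Project C1 (S34 + S35), architect helper23.  TASK C1-A1: formal consequences of `ALData`
(generation of `FN (M q)` by `α (FN M)` and `β (FN M)`; `w` is an involution commuting with the
Galois action; uniqueness).
-/
import Fermat.Agent.C1.Defs
import Fermat.Agent.S24.B.Field
import Fermat.Agent.GAL.E.HeckeBasic
import Fermat.Agent.GAL.E.HeckeComm

set_option autoImplicit false

noncomputable section

namespace Fermat.Agent.C1

open ModularCurve AlgebraicCurve Fermat.Agent.S24 Fermat.Agent.S24.B Fermat.Agent.GAL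
  Fermat.Agent.GAL.E

variable {M q : ℕ} [NeZero M] [NeZero q]

theorem AL.JF_eq_al (d : ℕ) [NeZero d] (hd : d ∣ M) (hd' : d ∣ M * q) :
    JF (M * q) d hd' = heckeAlphaBar Kbar M q (JF M d hd) := by
  apply Subtype.ext
  rw [coe_heckeAlphaBar]
  rfl

theorem AL.JF_eq_be (d : ℕ) [NeZero d] [NeZero (q * d)] (hd : d ∣ M) (hd' : q * d ∣ M * q) :
    JF (M * q) (q * d) hd' = heckeBetaBar Kbar M q (JF M d hd) := by
  apply Subtype.ext
  rw [coe_heckeBetaBar]
  show Jser (q * d) = qExpand Kbar q (Jser d)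
  rw [Jser_eq_qExpand (q * d), Jser_eq_qExpand d, HeckeComm.qExpand_qExpand]

/-- `FN (M q)` is generated (as a field) by `α (FN M)` and `β (FN M)`.
(From `S24.B.FN_induction`: a divisor `d` of `M q`, `q` prime, divides `M` or is `q d'` with
`d' ∣ M`; `JF (M q) d = α (JF M d)`, `JF (M q) (q d') = β (JF M d')`; constants are `α` of
constants.) -/
theorem FN_mul_induction (hq : q.Prime) {P : FN (M * q) → Prop}
    (hal : ∀ x : FN M, P (heckeAlphaBar Kbar M q x)) (hbe : ∀ x : FN M, P (heckeBetaBar Kbar M q x))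
    (hadd : ∀ f g, P f → P g → P (f + g)) (hneg : ∀ f, P f → P (-f))
    (hmul : ∀ f g, P f → P g → P (f * g)) (hinv : ∀ f, P f → P f⁻¹) (f : FN (M * q)) : P f := by
  induction f using FN_induction with
  | hJ d hne hd =>
    by_cases hqd : q ∣ d
    · obtain ⟨d', rfl⟩ := hqd
      have hd' : d' ∣ M := by
        rw [mul_comm M q] at hd
        exact Nat.dvd_of_mul_dvd_mul_left hq.pos hd
      have : NeZero d' := ⟨fun h => hne.out (by rw [h, mul_zero])⟩
      rw [AL.JF_eq_be d' hd' hd]
      exact hbe _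
    · have hcop : Nat.Coprime d q := (Nat.coprime_comm.1 ((Nat.Prime.coprime_iff_not_dvd hq).2 hqd))
      have hd' : d ∣ M := hcop.dvd_of_dvd_mul_right hd
      rw [AL.JF_eq_al d hd' hd]
      exact hal _
  | hc c =>
    rw [← (heckeAlphaBar Kbar M q).commutes c]
    exact hal _
  | hadd f g hf hg => exact hadd f g hf hg
  | hneg f hf => exact hneg f hf
  | hmul f g hf hg => exact hmul f g hf hg
  | hinv f hf => exact hinv f hf

theorem galF_al (σ : GQ) (x : FN M) :
    galF (M * q) σ (heckeAlphaBar Kbar M q x) = heckeAlphaBar Kbar M q (galF M σ x) := by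
  apply Subtype.ext
  rw [coe_galF, coe_heckeAlphaBar, coe_heckeAlphaBar, coe_galF]

theorem galF_be (σ : GQ) (x : FN M) :
    galF (M * q) σ (heckeBetaBar Kbar M q x) = heckeBetaBar Kbar M q (galF M σ x) := by
  apply Subtype.ext
  rw [coe_galF, coe_heckeBetaBar, coe_heckeBetaBar, coe_galF, HeckeBasic.coeffMap_qExpand]

namespace ALData

variable (D : ALData M q)

theorem w_w (hq : q.Prime) (u : FN (M * q)) : D.w (D.w u) = u := by
  refine FN_mul_induction hq (P := fun u => D.w (D.w u) = u) ?_ ?_ ?_ ?_ ?_ ?_ u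
  · intro x; rw [D.w_al, D.w_be]
  · intro x; rw [D.w_be, D.w_al]
  · intro f g hf hg; rw [map_add, map_add, hf, hg]
  · intro f hf; rw [map_neg, map_neg, hf]
  · intro f g hf hg; rw [map_mul, map_mul, hf, hg]
  · intro f hf; rw [map_inv₀, map_inv₀, hf]

theorem w_injective : Function.Injective D.w := D.w.toRingHom.injective

theorem w_galF (hq : q.Prime) (σ : GQ) (u : FN (M * q)) :
    D.w (galF (M * q) σ u) = galF (M * q) σ (D.w u) := by
  refine FN_mul_induction hq
    (P := fun u => D.w (galF (M * q) σ u) = galF (M * q) σ (D.w u)) ?_ ?_ ?_ ?_ ?_ ?_ u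
  · intro x; rw [galF_al, D.w_al, D.w_al, galF_be]
  · intro x; rw [galF_be, D.w_be, D.w_be, galF_al]
  · intro f g hf hg; rw [map_add, map_add, map_add, map_add, hf, hg]
  · intro f hf; rw [map_neg, map_neg, map_neg, map_neg, hf]
  · intro f g hf hg; rw [map_mul, map_mul, map_mul, map_mul, hf, hg]
  · intro f hf; rw [map_inv₀, map_inv₀, map_inv₀, map_inv₀, hf]

theorem w_eq (hq : q.Prime) (D' : ALData M q) : D.w = D'.w := by
  refine AlgHom.ext fun u => ?_
  refine FN_mul_induction hq (P := fun u => D.w u = D'.w u) ?_ ?_ ?_ ?_ ?_ ?_ u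
  · intro x; rw [D.w_al, D'.w_al]
  · intro x; rw [D.w_be, D'.w_be]
  · intro f g hf hg; rw [map_add, map_add, hf, hg]
  · intro f hf; rw [map_neg, map_neg, hf]
  · intro f g hf hg; rw [map_mul, map_mul, hf, hg]
  · intro f hf; rw [map_inv₀, map_inv₀, hf]

theorem nm_eq (hq : q.Prime) (D' : ALData M q) : D.nm = D'.nm := by
  refine MonoidHom.ext fun u => Subtype.ext (qExpand_injective' q ?_)
  rw [D.qExpand_nm, D'.qExpand_nm, D.w_eq hq D']

/-- The norm commutes with the Galois action (apply `coeffMap σ` to `qExpand_nm`; the product over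
the `q`-th roots of unity is permuted: copy the proof of `GAL.E.HeckeOp.galF_T`). -/
theorem nm_galF (hq : q.Prime) (σ : GQ) (u : FN (M * q)) :
    D.nm (galF (M * q) σ u) = galF M σ (D.nm u) := by
  refine Subtype.ext (qExpand_injective' q ?_)
  rw [D.qExpand_nm, D.w_galF hq, coe_galF, coe_galF, coe_galF, ← HeckeBasic.coeffMap_qExpand,
    ← HeckeBasic.coeffMap_qExpand, D.qExpand_nm, map_mul, map_prod]
  congr 1
  simp only [HeckeBasic.coeffMap_twist, map_pow]
  have hξ : IsPrimitiveRoot (Units.map ((σ : Kbar →+* Kbar) : Kbar →* Kbar) (zetaK q)) q := by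
    rw [← IsPrimitiveRoot.coe_units_iff, Units.coe_map]
    exact (IsPrimitiveRoot.coe_units_iff.2 (isPrimitiveRoot_zetaK q)).map_of_injective
      (f := (σ : Kbar →+* Kbar)) σ.injective
  exact (HeckeBasic.prod_pow_eq (isPrimitiveRoot_zetaK q) hξ
    (fun z => twist z (coeffMap (σ : Kbar →+* Kbar) ((D.w u : FN (M * q)) : LaurentSeries Kbar)))).symm

end ALData

end Fermat.Agent.C1

end
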