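/-
Project C1 (S34 + S35), architect helper23.  TASK C1-K2: the subgroup `IsKinf` of the Kummer model
(classes `≡ 1` at the Gauss valuation); constants are `n`-th powers; criterion via `RedS`.
Owner: helper57.
-/
import Fermat.Agent.C1.Red.Field

set_option autoImplicit false

noncomputable section

namespace Fermat.Agent.C1

open ModularCurve AlgebraicCurve Fermat.Agent.S24 Fermat.Agent.S24.B Fermat.Agent.GAL
  Fermat.Agent.GAL.E

variable {A : ValuationSubring Kbar} {N n : ℕ}

theorem IsKinf.zero : IsKinf A (0 : W N n) :=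
  ⟨1, cls_one, by simpa using Cong1.one (A := A) N⟩

theorem IsKinf.add {x y : W N n} (hx : IsKinf A x) (hy : IsKinf A y) : IsKinf A (x + y) := by
  obtain ⟨u, rfl, hu⟩ := hx
  obtain ⟨v, rfl, hv⟩ := hy
  refine ⟨u * v, cls_mul u v, ?_⟩
  rw [Subgroup.coe_mul, Units.val_mul]
  exact hu.mul hv

theorem IsKinf.neg {x : W N n} (hx : IsKinf A x) : IsKinf A (-x) := by
  obtain ⟨u, rfl, hu⟩ := hx
  refine ⟨u⁻¹, cls_inv u, ?_⟩
  rw [Subgroup.coe_inv, Units.val_inv_eq_inv_val]
  exact hu.inv

theorem IsKinf.sub {x y : W N n} (hx : IsKinf A x) (hy : IsKinf A y) : IsKinf A (x - y) := by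
  have e : x - y = x + -y := sub_eq_add_neg x y
  rw [e]
  exact hx.add hy.neg

/-- two Kummer units which differ by a constant have the same class (`ℚ̄` is algebraically
closed) -/
theorem cls_eq_of_eq_const_mul [NeZero n] (u v : kum N n) (c : Kbar)
    (h : ((u : (FN N)ˣ) : FN N) = algebraMap Kbar (FN N) c * ((v : (FN N)ˣ) : FN N)) :
    cls u = cls v := by
  obtain ⟨d, hd⟩ := IsAlgClosed.exists_pow_nat_eq c (NeZero.pos n)
  have h0 : cls (u * v⁻¹) = 0 := by
    rw [cls_eq_zero_iff]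
    apply mem_pows_of_eq_pow (w := algebraMap Kbar (FN N) d)
    rw [Subgroup.coe_mul, Subgroup.coe_inv, Units.val_mul, Units.val_inv_eq_inv_val, h, ← map_pow,
      hd, mul_assoc, mul_inv_cancel₀ (Units.ne_zero _), mul_one]
  rw [cls_mul, cls_inv] at h0
  exact add_neg_eq_zero.mp h0

/-- the coercion of a constant to a Laurent series -/
theorem Kinf.coe_algebraMap (c : Kbar) :
    ((algebraMap Kbar (FN N) c : FN N) : LaurentSeries Kbar) = HahnSeries.C c := by
  show algebraMap Kbar (LaurentSeries Kbar) c = HahnSeries.C c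
  rw [algebraMap_laurentSeries_eq_single]
  rfl

/-- a Kummer unit which is congruent to a constant gives a class in `IsKinf` -/
theorem isKinf_of_redS [NeZero n] {q : ℕ} (hq : q.Prime) (hA : A.LiesOverPrime q) (u : kum N n)
    (c : Kbar) (a : IsLocalRing.ResidueField A)
    (h : RedS A (((u : (FN N)ˣ) : FN N) : LaurentSeries Kbar) c (HahnSeries.C a)) :
    IsKinf A (cls u) := by
  have ha : a ≠ 0 := by
    rintro rfl
    exact h.red_ne_zero (map_zero _)
  obtain ⟨b, rfl⟩ := IsLocalRing.residue_surjective a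
  have hb : IsUnit b := by
    by_contra hb
    exact ha ((IsLocalRing.residue_eq_zero_iff b).mpr ((IsLocalRing.mem_maximalIdeal b).mpr hb))
  obtain ⟨bu, rfl⟩ := hb
  have h1 := h.rescale bu
  have e1 : HahnSeries.C (IsLocalRing.residue A ((bu⁻¹ : Aˣ) : A)) *
      HahnSeries.C (IsLocalRing.residue A (bu : A)) =
      (1 : LaurentSeries (IsLocalRing.ResidueField A)) := by
    rw [← map_mul, ← map_mul, Units.inv_mul, map_one, map_one]
  rw [e1] at h1
  set c' : Kbar := ((bu : A) : Kbar) * c with hc'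
  have hc0 : c' ≠ 0 := h1.1
  have h2 := h1.div (RedS.const (A := A) hc0)
  rw [div_self hc0, div_one] at h2
  -- the rescaled unit
  have hcF : algebraMap Kbar (FN N) c' ≠ 0 := (map_ne_zero _).2 hc0
  let u₁ : (FN N)ˣ := (u : (FN N)ˣ) * (Units.mk0 _ hcF)⁻¹
  have hu₁ : u₁ ∈ kum N n := by
    refine (kum N n).mul_mem u.2 ((kum N n).inv_mem ?_)
    exact isKum_algebraMap N n c'
  have hval : (u₁ : FN N) = ((u : (FN N)ˣ) : FN N) / algebraMap Kbar (FN N) c' := by
    simp [u₁, div_eq_mul_inv]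
  refine ⟨⟨u₁, hu₁⟩, ?_, ?_⟩
  · symm
    apply cls_eq_of_eq_const_mul u ⟨u₁, hu₁⟩ c'
    change ((u : (FN N)ˣ) : FN N) = algebraMap Kbar (FN N) c' * (u₁ : FN N)
    rw [hval, mul_div_cancel₀ _ hcF]
  · apply cong1_of_redS hq hA
    change RedS A ((u₁ : FN N) : LaurentSeries Kbar) 1 1
    have : ((u₁ : FN N) : LaurentSeries Kbar) =
        (((u : (FN N)ˣ) : FN N) : LaurentSeries Kbar) / HahnSeries.C c' := by
      rw [hval, ← Kinf.coe_algebraMap (N := N) c']
      rfl
    rw [this]
    exact h2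

end Fermat.Agent.C1

end
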