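/-
Project C1 (S34 + S35), architect helper23.  TASK C1-K1: the operators `wW`, `nmW`, `alW` on the
Kummer models: involution, Galois equivariance.  (Immediate from `C1/AL.lean` by `cls_surjective`,
`mapW₂_cls`, `rho_cls`.)
-/
import Fermat.Agent.C1.AL

set_option autoImplicit false

noncomputable section

namespace Fermat.Agent.C1

open ModularCurve AlgebraicCurve Fermat.Agent.S24 Fermat.Agent.S24.B Fermat.Agent.GAL
  Fermat.Agent.GAL.E

namespace ALData

variable {M q : ℕ} [NeZero M] [NeZero q] (D : ALData M q) (n : ℕ)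

theorem wW_wW (hq : q.Prime) (x : W (M * q) n) : D.wW n (D.wW n x) = x := by
  obtain ⟨u, rfl⟩ := cls_surjective x
  rw [wW, mapW₂_cls, mapW₂_cls]
  refine congrArg cls (Subtype.ext (Units.ext ?_))
  exact D.w_w hq _

theorem wW_rho (hq : q.Prime) (σ : GQ) (x : W (M * q) n) :
    D.wW n (rho (M * q) n σ x) = rho (M * q) n σ (D.wW n x) := by
  obtain ⟨u, rfl⟩ := cls_surjective x
  rw [wW, rho_cls, mapW₂_cls, mapW₂_cls, rho_cls]
  refine congrArg cls (Subtype.ext (Units.ext ?_))
  exact D.w_galF hq σ _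

theorem nmW_rho (hq : q.Prime) (σ : GQ) (x : W (M * q) n) :
    D.nmW n (rho (M * q) n σ x) = rho M n σ (D.nmW n x) := by
  obtain ⟨u, rfl⟩ := cls_surjective x
  rw [nmW, rho_cls, mapW₂_cls, mapW₂_cls, rho_cls]
  refine congrArg cls (Subtype.ext (Units.ext ?_))
  exact D.nm_galF hq σ _

theorem alW_rho (σ : GQ) (y : W M n) :
    D.alW n (rho M n σ y) = rho (M * q) n σ (D.alW n y) := by
  obtain ⟨u, rfl⟩ := cls_surjective y
  rw [alW, rho_cls, mapW₂_cls, mapW₂_cls, rho_cls]
  refine congrArg cls (Subtype.ext (Units.ext ?_))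
  exact (galF_al σ _).symm

end ALData

end Fermat.Agent.C1

end
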