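/-
Project C1 (S34 + S35), architect helper23.  TASK C1-K6a: a function separating the two valuations
`v_∞` and `v_0 = v_∞ ∘ w`.

Proof.  `e := β j - (α j) ^ q = j(Q^q) - j(Q)^q` has `A`-integral coefficients and reduction `0`
(`j` has integral coefficients; `GAL.E.pow_char_eq_qExpand`; the coefficients of the reduction of
`j` lie in the prime field, so they are fixed by the Frobenius).  `w e = α j - (β j) ^ q =
j(Q) - j(Q^q)^q` is `A`-integral and its coefficient of `Q^(-q²)` is `-1`, so its reduction is not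
zero; in particular `e ≠ 0`.  `RedS e c₁ r₁` (`exists_redS`) with `c₁ ∈ A.nonunits`
(`RedS.mem_nonunits`).  Take `π` with `π ^ 2 = c₁` and `g := e / π`.
(The Kronecker elements are `S34.kronX`, `S34.kronY` of `Fermat/Agent/S34/Kron.lean`.)
-/
import Fermat.Agent.C1.Red.Field
import Fermat.Agent.C1.AL
import Fermat.Agent.S34.Kron

set_option autoImplicit false

noncomputable section

namespace Fermat.Agent.C1

open ModularCurve AlgebraicCurve Fermat.Agent.S24 Fermat.Agent.S24.B Fermat.Agent.GAL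
  Fermat.Agent.GAL.E

variable {M q : ℕ} [NeZero M] [NeZero q]

theorem ALData.w_kronY (D : ALData M q) : D.w (S34.kronY M q) = S34.kronX M q := by
  rw [S34.kronX, S34.kronY, map_sub, map_pow, D.w_al, D.w_be]

theorem Sep.coe_algebraMap_mul (N : ℕ) (c : Kbar) (u : FN N) :
    ((algebraMap Kbar (FN N) c * u : FN N) : LaurentSeries Kbar)
      = HahnSeries.C c * (u : LaurentSeries Kbar) := by
  show algebraMap Kbar (LaurentSeries Kbar) c * (u : LaurentSeries Kbar) = _
  rw [algebraMap_laurentSeries_eq_single]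
  rfl

theorem exists_sep (D : ALData M q) {A : ValuationSubring Kbar} (hq : q.Prime)
    (hA : A.LiesOverPrime q) :
    ∃ (g : FN (M * q)) (π : Kbar) (r r' : LaurentSeries (IsLocalRing.ResidueField A)),
      π ∈ A.nonunits ∧ RedS A (g : LaurentSeries Kbar) π r ∧
        RedS A ((D.w g : FN (M * q)) : LaurentSeries Kbar) π⁻¹ r' := by
  have hX : RedS A ((S34.kronX M q : FN (M * q)) : LaurentSeries Kbar) 1 (red A (S34.serX q A)) := by
    rw [S34.coe_kronX M q A]
    exact RedS.of_integral _ (S34.red_serX hq hA)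
  have hY0 : S34.kronY M q ≠ 0 := by
    intro h
    have h1 := D.w_kronY
    rw [h, map_zero] at h1
    exact hX.ne_zero (by rw [← h1]; rfl)
  obtain ⟨c₁, r₁, hY⟩ := exists_redS hq hA (S34.kronY M q) hY0
  have hc₁ : c₁ ∈ A.nonunits :=
    hY.mem_nonunits (S34.serY q A) (S34.coe_kronY M q A).symm (S34.red_serY hq hA)
  obtain ⟨π, hπ⟩ := IsAlgClosed.exists_pow_nat_eq c₁ (n := 2) (by norm_num)
  have hπ0 : π ≠ 0 := by
    rintro rfl
    rw [zero_pow (by norm_num)] at hπ
    exact hY.1 hπ.symm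
  have hπA : π ∈ A.nonunits := by
    rw [ValuationSubring.mem_nonunits_iff] at hc₁ ⊢
    rw [← hπ, map_pow] at hc₁
    by_contra hge
    rw [not_lt] at hge
    exact absurd hc₁ (not_lt.2 (one_le_pow₀ hge))
  have hC : RedS A (HahnSeries.C π⁻¹) π⁻¹ 1 := RedS.const (inv_ne_zero hπ0)
  refine ⟨algebraMap Kbar (FN (M * q)) π⁻¹ * S34.kronY M q, π, 1 * r₁,
    1 * red A (S34.serX q A), hπA, ?_, ?_⟩
  · rw [Sep.coe_algebraMap_mul]
    have h := hC.mul hY
    have e : π⁻¹ * c₁ = π := by
      rw [← hπ, pow_two, ← mul_assoc, inv_mul_cancel₀ hπ0, one_mul]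
    rwa [e] at h
  · rw [map_mul, AlgHom.commutes, D.w_kronY, Sep.coe_algebraMap_mul]
    have h := hC.mul hX
    rwa [mul_one] at h

end Fermat.Agent.C1

end
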