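/-
Project C1 (S34 + S35), architect helper23.  TASK C1-K6b: weak approximation for `v_∞`, `v_0` and
`K_∞ ∩ w K_∞ = T`.

`exists_approx`: with `g, π` from `exists_sep` put `h' := (1 + h g^m) / (1 + g^m)`, `m` large.
`RedS h c r`, `RedS (w h) c' r'`.  `RedS (h g^m) (c π^m) _` with `c π^m ∈ A.nonunits` for `m` large
(`exists_pow_mul_mem_nonunits`), so `1 + h g^m ≡ 1`, `1 + g^m ≡ 1` (`RedS.one_add`): `h' ≡ 1`.
`w (h' / h) = (1 + (w h)⁻¹ (w g)^(-m)) / (1 + (w g)^(-m))` and `(w h)⁻¹ (w g)^(-m)` has constant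
`c'⁻¹ π^m`.

`isTor_of_isKinf`: `x = cls u = cls u'`, `u ≡ 1`, `w u'' ≡ 1` where `cls u'' = w x`, so
`cls (w u'') = x` and `w u'' = u h^n`; apply `exists_approx` to `h`; `u h'^n` is `≡ 1` at `v_∞`,
and `w (u h'^n) = u'' * (w (h'/h))^n ≡ 1`.
-/
import Fermat.Agent.C1.Sep
import Fermat.Agent.C1.Kinf
import Fermat.Agent.C1.KumW

set_option autoImplicit false

noncomputable section

namespace Fermat.Agent.C1

open ModularCurve AlgebraicCurve Fermat.Agent.S24 Fermat.Agent.S24.B Fermat.Agent.GAL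
  Fermat.Agent.GAL.E

/-- The valuation of `ℚ̄` attached to `A ∣ q` has rank one. -/
theorem exists_pow_mul_mem_nonunits {A : ValuationSubring Kbar} {q : ℕ} (hq : q.Prime)
    (hA : A.LiesOverPrime q) (π : Kbar) (hπ : π ∈ A.nonunits) (c : Kbar) :
    ∃ m₀ : ℕ, ∀ m : ℕ, m₀ ≤ m → c * π ^ m ∈ A.nonunits := by
  have hz : (0 : Kbar) ∈ A.nonunits := by
    rw [A.mem_nonunits_iff, map_zero]
    exact zero_lt_one
  rcases eq_or_ne c 0 with rfl | hc
  · exact ⟨0, fun m _ => by rw [zero_mul]; exact hz⟩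
  rcases eq_or_ne π 0 with rfl | hπ0
  · exact ⟨1, fun m hm => by rw [zero_pow (by omega), mul_zero]; exact hz⟩
  have hπv : A.valuation π < 1 := A.mem_nonunits_iff.mp hπ
  -- it suffices to find one exponent
  suffices h : ∃ m₁ : ℕ, c * π ^ m₁ ∈ A.nonunits by
    obtain ⟨m₁, hm₁⟩ := h
    refine ⟨m₁, fun m hm => ?_⟩
    obtain ⟨k, rfl⟩ := Nat.exists_eq_add_of_le hm
    rw [A.mem_nonunits_iff] at hm₁ ⊢
    rw [pow_add, ← mul_assoc, map_mul, map_pow]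
    exact mul_lt_one_of_lt_of_le hm₁ (pow_le_one' hπv.le k)
  by_contra hcon
  push Not at hcon
  have hπint : IsIntegral ℚ π := by
    have h : (DivisionRing.toRatAlgebra : Algebra ℚ (AlgebraicClosure ℚ)) =
        AlgebraicClosure.instAlgebra ℚ := Subsingleton.elim _ _
    have h1 : @IsIntegral ℚ (AlgebraicClosure ℚ) _ _ (AlgebraicClosure.instAlgebra ℚ) π :=
      ((AlgebraicClosure.isAlgebraic ℚ).isAlgebraic π).isIntegral
    rw [← h] at h1
    exact h1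
  have : FiniteDimensional ℚ (IntermediateField.adjoin ℚ {π}) :=
    IntermediateField.adjoin.finiteDimensional hπint
  have hπL : π ∈ IntermediateField.adjoin ℚ {π} := IntermediateField.mem_adjoin_simple_self ℚ π
  obtain ⟨s₀, ⟨m₀, rfl⟩, -, hmax⟩ := exists_max_of_bounded A q hq hA
    (IntermediateField.adjoin ℚ {π}) (Set.range fun m : ℕ => π⁻¹ ^ m)
    (by
      rintro _ ⟨m, rfl⟩
      exact pow_mem (inv_mem hπL) m)
    ⟨1, ⟨0, by simp⟩, one_ne_zero⟩ c⁻¹ (inv_ne_zero hc)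
    (by
      rintro _ ⟨m, rfl⟩
      have h1 := hcon m
      rw [A.mem_nonunits_iff, not_lt] at h1
      rw [← A.valuation_le_one_iff]
      have h2 : c⁻¹ * π⁻¹ ^ m = (c * π ^ m)⁻¹ := by rw [mul_inv, inv_pow]
      simp only [h2, map_inv₀]
      exact inv_le_one_of_one_le₀ h1)
  have h1 : π⁻¹ ∈ A := by
    have h2 := hmax _ ⟨m₀ + 1, rfl⟩
    have h3 : π⁻¹ ^ (m₀ + 1) / π⁻¹ ^ m₀ = π⁻¹ := by
      rw [pow_succ]
      field_simp
    simp only [h3] at h2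
    exact h2
  rw [← A.valuation_le_one_iff, map_inv₀] at h1
  have h4 : A.valuation π ≠ 0 := (A.valuation.ne_zero_iff).mpr hπ0
  have h5 : 1 ≤ A.valuation π := (inv_le_one₀ (zero_lt_iff.mpr h4)).mp h1
  exact absurd hπv (not_lt.mpr h5)

/-- `(1 + a) / (1 + b) ≡ 1` if `v(a) > 0` and `v(b) > 0`. -/
theorem cong1_one_add_div {A : ValuationSubring Kbar} {q : ℕ} (hq : q.Prime)
    (hA : A.LiesOverPrime q) {N : ℕ} (a b : FN N) {ca cb : Kbar}
    {ra rb : LaurentSeries (IsLocalRing.ResidueField A)}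
    (ha : RedS A (a : LaurentSeries Kbar) ca ra) (hca : ca ∈ A.nonunits)
    (hb : RedS A (b : LaurentSeries Kbar) cb rb) (hcb : cb ∈ A.nonunits) :
    Cong1 A N ((1 + a) / (1 + b)) := by
  apply cong1_of_redS hq hA
  have h1 := (ha.one_add hca).div (hb.one_add hcb)
  rw [div_one, div_one] at h1
  exact h1

theorem Cong1.pow {A : ValuationSubring Kbar} {N : ℕ} {u : FN N} (hu : Cong1 A N u) (m : ℕ) :
    Cong1 A N (u ^ m) := by
  induction m with
  | zero => rw [pow_zero]; exact Cong1.one N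
  | succ m ih => rw [pow_succ]; exact ih.mul hu

variable {M q : ℕ} [NeZero M] [NeZero q]

theorem exists_approx (D : ALData M q) {A : ValuationSubring Kbar} (hq : q.Prime)
    (hA : A.LiesOverPrime q) (h : FN (M * q)) (hh : h ≠ 0) :
    ∃ h' : FN (M * q), h' ≠ 0 ∧ Cong1 A (M * q) h' ∧ Cong1 A (M * q) (D.w (h' / h)) := by
  obtain ⟨g, π, r, r', hπ, hg, hwg⟩ := exists_sep D hq hA
  have hwh : D.w h ≠ 0 := (map_ne_zero_iff _ D.w_injective).mpr hh
  obtain ⟨c, ρ, hc⟩ := exists_redS hq hA h hh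
  obtain ⟨c', ρ', hc'⟩ := exists_redS hq hA (D.w h) hwh
  obtain ⟨m₁, hm₁⟩ := exists_pow_mul_mem_nonunits hq hA π hπ c
  obtain ⟨m₂, hm₂⟩ := exists_pow_mul_mem_nonunits hq hA π hπ 1
  obtain ⟨m₃, hm₃⟩ := exists_pow_mul_mem_nonunits hq hA π hπ c'⁻¹
  obtain ⟨m, h₁, h₂, h₃⟩ : ∃ m : ℕ, m₁ ≤ m ∧ m₂ ≤ m ∧ m₃ ≤ m :=
    ⟨max m₁ (max m₂ m₃), le_max_left _ _, le_trans (le_max_left _ _) (le_max_right _ _),
      le_trans (le_max_right _ _) (le_max_right _ _)⟩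
  have hπm : π ^ m ∈ A.nonunits := by
    have := hm₂ m h₂
    rwa [one_mul] at this
  -- the four normalisations
  have a₁ : RedS A ((h * g ^ m : FN (M * q)) : LaurentSeries Kbar) (c * π ^ m) (ρ * r ^ m) :=
    hc.mul (hg.pow m)
  have b₁ : RedS A ((g ^ m : FN (M * q)) : LaurentSeries Kbar) (π ^ m) (r ^ m) := hg.pow m
  have a₂ : RedS A (((D.w h)⁻¹ * (D.w g)⁻¹ ^ m : FN (M * q)) : LaurentSeries Kbar)
      (c'⁻¹ * π ^ m) (ρ'⁻¹ * r'⁻¹ ^ m) := by
    have := hc'.inv.mul (hwg.inv.pow m)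
    rwa [inv_inv] at this
  have b₂ : RedS A (((D.w g)⁻¹ ^ m : FN (M * q)) : LaurentSeries Kbar) (π ^ m) (r'⁻¹ ^ m) := by
    have := hwg.inv.pow m
    rwa [inv_inv] at this
  have C₁ := cong1_one_add_div hq hA _ _ a₁ (hm₁ m h₁) b₁ hπm
  have C₂ := cong1_one_add_div hq hA _ _ a₂ (hm₃ m h₃) b₂ hπm
  refine ⟨(1 + h * g ^ m) / (1 + g ^ m), C₁.ne_zero, C₁, ?_⟩
  have hg0 : g ≠ 0 := by
    rintro rfl
    exact hg.ne_zero rfl
  have hwg0 : D.w g ≠ 0 := (map_ne_zero_iff _ D.w_injective).mpr hg0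
  have hd₁ : (1 + g ^ m : FN (M * q)) ≠ 0 := by
    intro h0
    exact (b₁.one_add hπm).ne_zero (congrArg (fun z : FN (M * q) => (z : LaurentSeries Kbar)) h0)
  have hd₁' : 1 + D.w g ^ m ≠ 0 := by
    have := (map_ne_zero_iff _ D.w_injective).mpr hd₁
    rwa [map_add, map_one, map_pow] at this
  have hd₂ : (1 + (D.w g)⁻¹ ^ m : FN (M * q)) ≠ 0 := by
    intro h0
    exact (b₂.one_add hπm).ne_zero (congrArg (fun z : FN (M * q) => (z : LaurentSeries Kbar)) h0)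
  have key : D.w ((1 + h * g ^ m) / (1 + g ^ m) / h) =
      (1 + (D.w h)⁻¹ * (D.w g)⁻¹ ^ m) / (1 + (D.w g)⁻¹ ^ m) := by
    rw [map_div₀, map_div₀, map_add, map_add, map_mul, map_pow, map_one]
    rw [inv_pow] at hd₂ ⊢
    have hgm : D.w g ^ m ≠ 0 := pow_ne_zero m hwg0
    rw [div_div, div_eq_div_iff (mul_ne_zero hd₁' hwh) hd₂]
    field_simp
    ring
  rw [key]
  exact C₂

theorem isTor_of_isKinf (D : ALData M q) {A : ValuationSubring Kbar} (hq : q.Prime)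
    (hA : A.LiesOverPrime q) {n : ℕ} {x : W (M * q) n} (hx : IsKinf A x)
    (hwx : IsKinf A (D.wW n x)) : IsTor D A x := by
  obtain ⟨u, rfl, hu⟩ := hx
  obtain ⟨u'', hcls, hu''⟩ := hwx
  -- `cls (w u'') = cls u`
  have h1 : D.wW n (cls u'') = cls u := by rw [hcls, D.wW_wW n hq]
  set wu : kum (M * q) n :=
    ⟨Units.map ((D.w : FN (M * q) →+* FN (M * q)) : FN (M * q) →* FN (M * q)) (u'' : (FN (M * q))ˣ),
      D.isKum_w n _ u''.2⟩ with hwu
  have h2 : cls wu = cls u := h1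
  have h3 : cls (wu * u⁻¹) = 0 := by
    rw [cls_mul, cls_inv, h2]
    exact add_neg_cancel (cls u)
  obtain ⟨t, ht⟩ := (cls_eq_zero_iff _).mp h3
  have ht' : (t : FN (M * q)) ^ n =
      D.w ((u'' : (FN (M * q))ˣ) : FN (M * q)) * ((u : (FN (M * q))ˣ) : FN (M * q))⁻¹ := by
    have := congrArg (fun z : (FN (M * q))ˣ => (z : FN (M * q))) ht
    simp only [powMonoidHom_apply, Units.val_pow_eq_pow_val, Subgroup.coe_mul, Units.val_mul,
      InvMemClass.coe_inv, Units.val_inv_eq_inv_val] at this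
    exact this
  obtain ⟨h', hh'0, C₁, C₂⟩ := exists_approx D hq hA (t : FN (M * q)) t.ne_zero
  have hu0 : ((u : (FN (M * q))ˣ) : FN (M * q)) ≠ 0 := (u : (FN (M * q))ˣ).ne_zero
  have hwu0 : D.w ((u : (FN (M * q))ˣ) : FN (M * q)) ≠ 0 :=
    (map_ne_zero_iff _ D.w_injective).mpr hu0
  have hwt0 : D.w (t : FN (M * q)) ≠ 0 := (map_ne_zero_iff _ D.w_injective).mpr t.ne_zero
  set P : kum (M * q) n := ⟨Units.mk0 h' hh'0 ^ n, pows_le_kum _ _ ⟨_, rfl⟩⟩ with hP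
  have hPcls : cls P = 0 := (cls_eq_zero_iff _).mpr ⟨_, rfl⟩
  have hcoe : (((u * P : kum (M * q) n) : (FN (M * q))ˣ) : FN (M * q)) =
      ((u : (FN (M * q))ˣ) : FN (M * q)) * h' ^ n := by
    simp [hP]
  refine ⟨u * P, by rw [cls_mul, hPcls]; exact add_zero (cls u), ?_, ?_⟩
  · rw [hcoe]
    exact hu.mul (C₁.pow n)
  · rw [hcoe]
    have h4 : D.w (t : FN (M * q)) ^ n =
        ((u'' : (FN (M * q))ˣ) : FN (M * q)) * (D.w ((u : (FN (M * q))ˣ) : FN (M * q)))⁻¹ := by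
      have := congrArg D.w ht'
      rwa [map_pow, map_mul, D.w_w hq, map_inv₀] at this
    have h5 : D.w (((u : (FN (M * q))ˣ) : FN (M * q)) * h' ^ n) =
        ((u'' : (FN (M * q))ˣ) : FN (M * q)) * D.w (h' / (t : FN (M * q))) ^ n := by
      rw [map_mul, map_pow, map_div₀, div_pow, h4]
      have hu''0 : ((u'' : (FN (M * q))ˣ) : FN (M * q)) ≠ 0 := (u'' : (FN (M * q))ˣ).ne_zero
      field_simp
    rw [h5]
    exact hu''.mul (C₂.pow n)

end Fermat.Agent.C1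

end
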