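/-
Project C1 (S34 + S35), architect helper23.  TASK C1-K4: the Hecke operators preserve `K_∞`
(any residue characteristic).  Proof: `RedS u 1 1`; by `HeckeOp.qExpand_T`, `RedS.map_qExpand`,
`RedS.map_twist_one`, `RedS.prod`, `RedS.mul`: `RedS (qExpand ℓ (T u)) 1 1`; `qExpand ℓ 1 = 1`;
`RedS.of_qExpand`; `cong1_of_redS`.
-/
import Fermat.Agent.C1.Kinf

set_option autoImplicit false

noncomputable section

namespace Fermat.Agent.C1

open ModularCurve AlgebraicCurve Fermat.Agent.S24 Fermat.Agent.S24.B Fermat.Agent.GAL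
  Fermat.Agent.GAL.E

theorem Cong1.hecke {A : ValuationSubring Kbar} {q : ℕ} (hq : q.Prime) (hA : A.LiesOverPrime q)
    {N ℓ : ℕ} [NeZero ℓ] (H : HeckeOp N ℓ) {u : FN N} (hu : Cong1 A N u) : Cong1 A N (H.T u) := by
  have h1 : RedS A (u : LaurentSeries Kbar) 1 1 := hu.redS
  have hℓ : ℓ ≠ 0 := NeZero.ne ℓ
  have : NeZero (ℓ * ℓ) := ⟨mul_ne_zero hℓ hℓ⟩
  have h2 : RedS A (qExpand Kbar (ℓ * ℓ) (u : LaurentSeries Kbar)) 1 1 := by
    have := h1.map_qExpand (ℓ * ℓ)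
    rwa [map_one] at this
  have h3 : ∀ b ∈ Finset.range ℓ, RedS A (twist (zetaK ℓ ^ b) (u : LaurentSeries Kbar)) 1 1 := by
    intro b _
    refine h1.map_twist_one _ ℓ hℓ ?_
    rw [← pow_mul, mul_comm, pow_mul, (isPrimitiveRoot_zetaK ℓ).pow_eq_one, one_pow]
  have h4 := RedS.prod (Finset.range ℓ) h3
  have h5 := h2.mul h4
  rw [← H.qExpand_T u] at h5
  simp only [Finset.prod_const_one, mul_one] at h5
  apply cong1_of_redS hq hA
  apply RedS.of_qExpand hq hA (H.T u) ℓ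
  rwa [map_one]

theorem IsKinf.TW {A : ValuationSubring Kbar} {q : ℕ} (hq : q.Prime) (hA : A.LiesOverPrime q)
    {N ℓ n : ℕ} [NeZero ℓ] (H : HeckeOp N ℓ) {x : W N n} (hx : IsKinf A x) :
    IsKinf A (H.TW n x) := by
  obtain ⟨u, rfl, hu⟩ := hx
  exact ⟨_, (H.TW_cls u).symm, Cong1.hecke hq hA H hu⟩

end Fermat.Agent.C1

end
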