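/-
Project C1 (S34 + S35), architect helper23.  TASK C1-K5: the congruence
`α^* α_* x ≡ x + σ (w x)  mod K_∞` for a Frobenius lift `σ` at `A ∣ q`.

Proof.  `x = cls u`.  `RedS u c r`, `RedS (w u) c' r'` (`exists_redS`).  By `ALData.qExpand_nm`,
`RedS.map_qExpand`, `RedS.map_twist_char` (`zetaK q ^ q = 1`), `RedS.prod`, `RedS.mul`:
`RedS (qExpand q (nm u)) (c * c' ^ q) (qExpand q r * r' ^ q)`, and
`r' ^ q = qExpand q (coeffMap frobenius r')` (`GAL.E.pow_char_eq_qExpand`), so by `RedS.of_qExpand`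
`RedS (nm u) (c * c' ^ q) (r * coeffMap frobenius r')`.  On the other hand
`RedS (σ (w u)) (σ c') (coeffMap frobenius r')` (`RedS.gal_frobenius`).  Hence
`α (nm u) / (u * σ (w u))` has reduction `1` and `isKinf_of_redS` applies.
-/
import Fermat.Agent.C1.Kinf
import Fermat.Agent.C1.KumW

set_option autoImplicit false

noncomputable section

namespace Fermat.Agent.C1

open ModularCurve AlgebraicCurve Fermat.Agent.S24 Fermat.Agent.S24.B Fermat.Agent.GAL
  Fermat.Agent.GAL.E

variable {M q : ℕ} [NeZero M] [NeZero q]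

/-- the reduction of the norm -/
theorem ALData.redS_nm (D : ALData M q) {A : ValuationSubring Kbar} [Fact q.Prime]
    [CharP (IsLocalRing.ResidueField A) q] (hA : A.LiesOverPrime q) (u : FN (M * q)) {c c' : Kbar}
    {r r' : LaurentSeries (IsLocalRing.ResidueField A)}
    (h : RedS A (u : LaurentSeries Kbar) c r)
    (h' : RedS A ((D.w u : FN (M * q)) : LaurentSeries Kbar) c' r') :
    RedS A ((D.nm u : FN M) : LaurentSeries Kbar) (c * c' ^ q)
      (r * coeffMap (frobenius (IsLocalRing.ResidueField A) q) r') := by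
  have hq : q.Prime := Fact.out
  apply RedS.of_qExpand hq hA (D.nm u) q
  rw [D.qExpand_nm, map_mul, ← pow_char_eq_qExpand]
  refine (h.map_qExpand q).mul ?_
  have hζ : ∀ b : ℕ, (zetaK q ^ b) ^ q = 1 := fun b => by
    rw [← pow_mul, mul_comm, pow_mul, (isPrimitiveRoot_zetaK q).pow_eq_one, one_pow]
  have h1 := RedS.prod (Finset.range q)
    (F := fun b => twist (zetaK q ^ b) ((D.w u : FN (M * q)) : LaurentSeries Kbar))
    (C := fun _ => c') (R := fun _ => r')
    (fun b _ => h'.map_twist_char hq hA (zetaK q ^ b) (hζ b))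
  simpa only [Finset.prod_const, Finset.card_range] using h1

theorem isKinf_frob (D : ALData M q) {A : ValuationSubring Kbar} (hq : q.Prime)
    (hA : A.LiesOverPrime q) {n : ℕ} [NeZero n] (σ : GQ) (hσ : A.IsFrobeniusAt σ q)
    (x : W (M * q) n) :
    IsKinf A (D.alW n (D.nmW n x) - x - rho (M * q) n σ (D.wW n x)) := by
  have : Fact q.Prime := ⟨hq⟩
  have := charP_residueField A q hq hA
  obtain ⟨u, rfl⟩ := cls_surjective x
  have hu0 : (((u : (FN (M * q))ˣ) : FN (M * q))) ≠ 0 := Units.ne_zero _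
  have hw0 : D.w (((u : (FN (M * q))ˣ) : FN (M * q))) ≠ 0 := fun h0 =>
    hu0 (D.w_injective (by rw [h0, map_zero]))
  obtain ⟨c, r, h⟩ := exists_redS hq hA (((u : (FN (M * q))ˣ) : FN (M * q))) hu0
  obtain ⟨c', r', h'⟩ := exists_redS hq hA (D.w (((u : (FN (M * q))ˣ) : FN (M * q)))) hw0
  have h1 := D.redS_nm hA _ h h'
  have h2 := h'.gal_frobenius q σ hσ
  let a : kum (M * q) n :=
    ⟨Units.map ((heckeAlphaBar Kbar M q : FN M →+* FN (M * q)) : FN M →* FN (M * q))
      (Units.map D.nm (u : (FN (M * q))ˣ)), D.isKum_al n _ (D.isKum_nm n _ u.2)⟩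
  let b : kum (M * q) n :=
    ⟨galU (M * q) σ (Units.map ((D.w : FN (M * q) →+* FN (M * q)) : FN (M * q) →* FN (M * q))
      (u : (FN (M * q))ˣ)), galU_mem_kum σ _ (D.isKum_w n _ u.2)⟩
  have key : D.alW n (D.nmW n (cls u)) - cls u - rho (M * q) n σ (D.wW n (cls u)) =
      cls (a / u / b) := rfl
  rw [key]
  refine isKinf_of_redS hq hA _ (c * c' ^ q / c / σ c') 1 ?_
  have h3 := (h1.div h).div h2
  have e : r * coeffMap (frobenius (IsLocalRing.ResidueField A) q) r' / r /
      (coeffMap (frobenius (IsLocalRing.ResidueField A) q) r') = HahnSeries.C 1 := by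
    have hr := h.red_ne_zero
    have hr' := h2.red_ne_zero
    rw [map_one]
    field_simp
  rw [e] at h3
  have hcoe : ((((a / u / b : kum (M * q) n) : (FN (M * q))ˣ) : FN (M * q)) : LaurentSeries Kbar) =
      ((D.nm ((u : (FN (M * q))ˣ) : FN (M * q)) : FN M) : LaurentSeries Kbar) /
        ((((u : (FN (M * q))ˣ) : FN (M * q))) : LaurentSeries Kbar) /
        coeffMap (σ : Kbar →+* Kbar)
          ((D.w ((u : (FN (M * q))ˣ) : FN (M * q)) : FN (M * q)) : LaurentSeries Kbar) := by
    rw [Subgroup.coe_div, Subgroup.coe_div, Units.val_div_eq_div_val, Units.val_div_eq_div_val,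
      IntermediateField.coe_div, IntermediateField.coe_div]
    rfl
  rw [hcoe]
  exact h3

end Fermat.Agent.C1

end
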