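/-
Project C1 (S34 + S35), architect helper23.  TASK C1-K3: `(τ - 1) W ⊆ K_∞` for `τ` in the inertia
group (any level).  Proof: `x = cls u`, `RedS u c r` (`exists_redS`), `RedS (τ u) (τ c) r`
(`RedS.gal_inertia`, `coe_galF`), so `RedS (τ u / u) (τ c / c) 1` and `isKinf_of_redS` applies.
-/
import Fermat.Agent.C1.Kinf

set_option autoImplicit false

noncomputable section

namespace Fermat.Agent.C1

open ModularCurve AlgebraicCurve Fermat.Agent.S24 Fermat.Agent.S24.B Fermat.Agent.GAL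
  Fermat.Agent.GAL.E

theorem isKinf_rho_sub {A : ValuationSubring Kbar} {q : ℕ} (hq : q.Prime)
    (hA : A.LiesOverPrime q) {N n : ℕ} [NeZero n] (τ : GQ) (hτ : τ ∈ A.inertiaSubgroupIn ℚ)
    (x : W N n) : IsKinf A (rho N n τ x - x) := by
  obtain ⟨u, rfl⟩ := cls_surjective x
  obtain ⟨c, r, h⟩ := exists_redS hq hA ((u : (FN N)ˣ) : FN N) (Units.ne_zero _)
  have h' := h.gal_inertia τ hτ
  have hd := h'.div h
  rw [div_self h.red_ne_zero] at hd
  have key : rho N n τ (cls u) - cls u =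
      cls ((⟨galU N τ (u : (FN N)ˣ), galU_mem_kum τ (u : (FN N)ˣ) u.2⟩ : kum N n) * u⁻¹) := by
    rw [rho_cls, cls_mul, cls_inv]
    exact sub_eq_add_neg (G := W N n) _ _
  rw [key]
  refine isKinf_of_redS hq hA _ (τ c / c) 1 ?_
  rw [map_one]
  convert hd using 1
  rw [← coe_galF]
  simp only [Subgroup.coe_mul, Units.val_mul, InvMemClass.coe_inv, Units.val_inv_eq_inv_val,
    coe_galU, div_eq_mul_inv]
  rfl

end Fermat.Agent.C1

end
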