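/-
Project C1 (S34 + S35), architect helper23.  TASK C1-K7: the two theorems on the Kummer model
`W (M q) n` from the nodal core (`NOD1`, `NOD2`).  Pure algebra on top of the other C1 files.

`unipotent`: `(τ - 1) x ∈ K_∞` (`isKinf_rho_sub`), `w (τ - 1) x = (τ - 1) (w x) ∈ K_∞` (`wW_rho`), so
`(τ - 1) x ∈ T` (`isTor_of_isKinf`), on which `d (τ' - 1) = 0`.

`steinberg`: put `E x := α^* α_* x - x - σ w x ∈ K_∞` (`isKinf_frob`).  `Pp (α^* y) = α^* (Pp' y) = 0`, so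
`D x := Pp (x + σ w x) = - Pp (E x) ∈ K_∞`, and `w (D x) = D (w x) ∈ K_∞` (`w² = 1`, `w σ = σ w`,
`w Pp = Pp w`), so `D x ∈ T`, so `d (σ² - q²) D x = 0`.  Finally
`Pp (σ⁴ - (1 + q²) σ² + q²) x = (σ w - 1) (σ² - q²) D x`.
-/
import Fermat.Agent.C1.Inertia
import Fermat.Agent.C1.FrobNorm
import Fermat.Agent.C1.Approx

set_option autoImplicit false

noncomputable section

namespace Fermat.Agent.C1

open ModularCurve AlgebraicCurve Fermat.Agent.S24 Fermat.Agent.S24.B Fermat.Agent.GAL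
  Fermat.Agent.GAL.E

/-- criterion for `d • (cls a - cls b) = 0` -/
theorem smul_cls_sub_eq_zero {N n d : ℕ} (a b : kum N n) (v : FN N)
    (h : ((a : (FN N)ˣ) : FN N) ^ d = ((b : (FN N)ˣ) : FN N) ^ d * v ^ n) :
    d • (cls a - cls b) = 0 := by
  have h1 : d • (cls a - cls b) = cls ((a * b⁻¹) ^ d) := by
    rw [cls_pow, cls_mul, cls_inv]
    exact congrArg (d • ·) (sub_eq_add_neg (cls a) (cls b))
  rw [h1, cls_eq_zero_iff]
  apply mem_pows_of_eq_pow (w := v)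
  have hb : ((b : (FN N)ˣ) : FN N) ^ d ≠ 0 := pow_ne_zero _ (Units.ne_zero _)
  rw [Subgroup.coe_pow, Subgroup.coe_mul, Subgroup.coe_inv, Units.val_pow_eq_pow_val, Units.val_mul,
    Units.val_inv_eq_inv_val, mul_pow, inv_pow, h, mul_comm, inv_mul_cancel_left₀ hb]

/-- the identity `P (σ⁴ - (c + 1) σ² + c) = (σ w - 1) (σ² - c) P (1 + σ w)` -/
theorem steinberg_algebra {X : Type*} [AddCommGroup X] (s w P : X →+ X)
    (hws : ∀ a, w (s a) = s (w a)) (hww : ∀ a, w (w a) = a) (hPw : ∀ a, P (w a) = w (P a))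
    (hPs : ∀ a, P (s a) = s (P a)) (c : ℕ) (x : X) :
    P (s (s (s (s x))) - (c + 1) • s (s x) + c • x) =
      s (w (s (s (P (x + s (w x)))) - c • P (x + s (w x)))) -
        (s (s (P (x + s (w x)))) - c • P (x + s (w x))) := by
  simp only [map_add, map_sub, map_nsmul, hPw, hPs, hws, hww, add_smul, one_smul, smul_add]
  abel

/-- abstract form of `steinberg` -/
theorem steinberg_abstract {X Y : Type*} [AddCommGroup X] [AddCommGroup Y] (K T : X → Prop)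
    (s : AddMonoid.End X) (w P : X →+ X) (al : Y →+ X) (nm : X →+ Y) (c d : ℕ)
    (hKneg : ∀ x, K x → K (-x)) (hT : ∀ x, K x → K (w x) → T x)
    (hfrob : ∀ x, K (al (nm x) - x - s (w x)))
    (hTd : ∀ x, T x → d • (s (s x) - c • x) = 0)
    (hws : ∀ a, w (s a) = s (w a)) (hww : ∀ a, w (w a) = a)
    (h1 : ∀ y, P (al y) = 0) (h2 : ∀ x, P (w x) = w (P x)) (h3 : ∀ x, P (s x) = s (P x))
    (h4 : ∀ x, K x → K (P x)) (x : X) :
    d • P ((s ^ 4) x - (c + 1) • (s ^ 2) x + c • x) = 0 := by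
  have e4 : (s ^ 4) x = s (s (s (s x))) := rfl
  have e2 : (s ^ 2) x = s (s x) := rfl
  have hK : ∀ z, K (P (z + s (w z))) := by
    intro z
    have h5 := hKneg _ (h4 _ (hfrob z))
    have h6 : -P (al (nm z) - z - s (w z)) = P (z + s (w z)) := by
      rw [map_sub, map_sub, h1, map_add]
      abel
    rwa [h6] at h5
  have hTx : T (P (x + s (w x))) := by
    apply hT _ (hK x)
    have h7 : w (P (x + s (w x))) = P (w x + s (w (w x))) := by
      rw [← h2, map_add, hws]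
    rw [h7]
    exact hK (w x)
  have hZ := hTd _ hTx
  have key := steinberg_algebra (s : X →+ X) w P hws hww h2 h3 c x
  rw [e4, e2]
  have key' : P (s (s (s (s x))) - (c + 1) • s (s x) + c • x) =
      s (w (s (s (P (x + s (w x)))) - c • P (x + s (w x)))) -
        (s (s (P (x + s (w x)))) - c • P (x + s (w x))) := key
  rw [key', smul_sub, ← map_nsmul, ← map_nsmul, hZ, map_zero, map_zero, sub_zero]

variable {M q : ℕ} [NeZero M] [NeZero q] (D : ALData M q) {A : ValuationSubring Kbar} {n d : ℕ}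

theorem NOD2_of_NOD2' (hq : q.Prime) (h : NOD2' D A n d) : NOD2 D A n d := by
  intro u hu hu1 hu2 σ hσ
  obtain ⟨v₁, hv₁⟩ := h u hu hu1 hu2 σ hσ
  obtain ⟨v₂, hv₂⟩ := h (D.w u) (D.isKum_w n u hu) hu2 (by rw [D.w_w hq]; exact hu1) σ hσ
  rw [D.w_w hq] at hv₂
  have hu0 : u ≠ 0 := hu1.ne_zero
  set g := galF (M * q) σ with hg
  have hg0 : ∀ z : FN (M * q), z ≠ 0 → g z ≠ 0 := fun z hz => by
    simpa using hz
  have hw0 : D.w u ≠ 0 := hu2.ne_zero
  -- apply `σ` to the first identity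
  have h1 : (g (g u) * (g (D.w u)) ^ q) ^ d = (g v₁) ^ n := by
    rw [← map_pow g (D.w u) q, ← map_mul, ← map_pow, hv₁, map_pow]
  have hv₂0 : v₂ ^ n ≠ 0 := by
    rw [← hv₂]
    exact pow_ne_zero _ (mul_ne_zero (hg0 _ hw0) (pow_ne_zero _ hu0))
  have hb0 : (g (D.w u)) ^ (q * d) ≠ 0 := pow_ne_zero _ (hg0 _ hw0)
  refine ⟨g v₁ / v₂ ^ q, ?_⟩
  have h2 : (g (D.w u)) ^ (q * d) * (u ^ (q ^ 2)) ^ d = (v₂ ^ n) ^ q := by
    rw [← hv₂]
    ring
  have h3 : (g (g u)) ^ d * (g (D.w u)) ^ (q * d) = (g v₁) ^ n := by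
    rw [← h1]
    ring
  have h4 : (g v₁ / v₂ ^ q) ^ n = (g v₁) ^ n / (v₂ ^ n) ^ q := by
    rw [div_pow, ← pow_mul, ← pow_mul, mul_comm q n]
  rw [h4, ← h2, ← h3]
  field_simp

theorem smul_rho_sub_of_isTor (h : NOD1 D A n d) (τ : GQ) (hτ : τ ∈ A.inertiaSubgroupIn ℚ)
    {x : W (M * q) n} (hx : IsTor D A x) : d • (rho (M * q) n τ x - x) = 0 := by
  obtain ⟨u, rfl, hu1, hu2⟩ := hx
  obtain ⟨v, hv⟩ := h _ u.2 hu1 hu2 τ hτ
  rw [rho_cls]
  exact smul_cls_sub_eq_zero _ _ v hv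

theorem smul_rho_rho_sub_of_isTor (h : NOD2 D A n d) (σ : GQ) (hσ : A.IsFrobeniusAt σ q)
    {x : W (M * q) n} (hx : IsTor D A x) :
    d • (rho (M * q) n σ (rho (M * q) n σ x) - (q ^ 2) • x) = 0 := by
  obtain ⟨u, rfl, hu1, hu2⟩ := hx
  obtain ⟨v, hv⟩ := h _ u.2 hu1 hu2 σ hσ
  rw [rho_cls, rho_cls, ← cls_pow]
  refine smul_cls_sub_eq_zero _ _ v ?_
  rw [Subgroup.coe_pow, Units.val_pow_eq_pow_val]
  exact hv

/-- **Inertia at `q ∥ M q` acts unipotently on the Kummer model.** -/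
theorem unipotent [NeZero n] (hq : q.Prime) (hA : A.LiesOverPrime q) (h : NOD1 D A n d)
    (τ τ' : GQ) (hτ : τ ∈ A.inertiaSubgroupIn ℚ) (hτ' : τ' ∈ A.inertiaSubgroupIn ℚ)
    (x : W (M * q) n) :
    d • (rho (M * q) n τ' (rho (M * q) n τ x - x) - (rho (M * q) n τ x - x)) = 0 := by
  apply smul_rho_sub_of_isTor D h τ' hτ'
  apply isTor_of_isKinf D hq hA (isKinf_rho_sub hq hA τ hτ x)
  have e : D.wW n (rho (M * q) n τ x - x) = rho (M * q) n τ (D.wW n x) - D.wW n x := by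
    have h1 := map_sub (D.wW n) (rho (M * q) n τ x) x
    rw [D.wW_rho n hq] at h1
    exact h1
  rw [e]
  exact isKinf_rho_sub hq hA τ hτ _

/-- **Frobenius lifts at `q ∥ M q`**: `Pp (σ² - 1) (σ² - q²) = 0` for every "Hecke operator" `Pp`
which kills the level `M`. -/
theorem steinberg [NeZero n] (hq : q.Prime) (hA : A.LiesOverPrime q) (h : NOD2 D A n d)
    (σ : GQ) (hσ : A.IsFrobeniusAt σ q)
    (Pp : W (M * q) n →+ W (M * q) n)
    (h1 : ∀ y : W M n, Pp (D.alW n y) = 0)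
    (h2 : ∀ x, Pp (D.wW n x) = D.wW n (Pp x))
    (h3 : ∀ x, Pp (rho (M * q) n σ x) = rho (M * q) n σ (Pp x))
    (h4 : ∀ x, IsKinf A x → IsKinf A (Pp x)) (x : W (M * q) n) :
    d • Pp (rho (M * q) n (σ ^ 4) x - (q ^ 2 + 1) • rho (M * q) n (σ ^ 2) x + (q ^ 2) • x) = 0 := by
  rw [map_pow, map_pow]
  exact steinberg_abstract (X := W (M * q) n) (Y := W M n) (IsKinf A) (IsTor D A)
    (rho (M * q) n σ) (D.wW n) Pp (D.alW n) (D.nmW n) (q ^ 2) d (fun _ hx => hx.neg)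
    (fun _ hx hx' => isTor_of_isKinf D hq hA hx hx') (isKinf_frob D hq hA σ hσ)
    (fun _ hx => smul_rho_rho_sub_of_isTor D h σ hσ hx) (D.wW_rho n hq σ) (D.wW_wW n hq)
    h1 h2 h3 h4 x

end Fermat.Agent.C1

end
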