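/-
Project C1 (S34 + S35), architect helper23.  TASK C1-G (proofs: helper193): from the Kummer model to
the universal tower: the condition `S35.SteinbergAt` for the tower `GAL.utowerOfKummer`.
-/
import Fermat.Agent.C1.Main
import Fermat.Agent.C1.HeckeStable
import Fermat.Agent.S35.Top
import Fermat.Agent.GAL.TowerOfKummer
import Fermat.Agent.Lib.Frobenius

set_option autoImplicit false

noncomputable section

namespace Fermat.Agent.C1

open Fermat.Agent.S24 Fermat.Agent.GAL Fermat.Agent.S30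

/-- The Kummer level `D` is the Kummer model `E.W N n` of block E, with its Galois action and its
Hecke operators. -/
def IsModelT {N n : ℕ} (D : KummerLevel N n) : Prop :=
  ∃ e : D.W ≃+ E.W N n, (∀ (σ : GQ) (w : D.W), e (D.ρ σ w) = E.rho N n σ (e w)) ∧
    ∀ (ℓ : ℕ) [NeZero ℓ], ℓ.Prime → ¬ ℓ ∣ N →
      ∃ H : E.HeckeOp N ℓ, ∀ w : D.W, e (D.T ℓ w) = H.TW n (e w)

/-- What the final assembly of the cluster GAL has to expose for S35 (and S36). -/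
def ModelTStatement : Prop :=
  ∀ (N : ℕ) [NeZero N] (p : ℕ) [Fact p.Prime] (k : ℕ), ∃ D : KummerLevel N (p ^ k), IsModelT D

namespace Glue

/-- In a universal tower, `X_ℓ = σ + ℓ σ⁻¹` for a Frobenius lift `σ` at a good prime `ℓ`. -/
theorem X_smul_eq_of_isFrob {N p : ℕ} [NeZero N] {S : Finset ℕ} (U : UTower N p S) (k : ℕ)
    {ℓ : ℕ} (hℓ : ℓ.Prime) (hℓS : ℓ ∉ S) {σ : GQ} (hσ : IsFrob σ ℓ) (x : U.W k) :
    (MvPolynomial.X ℓ : HA) • x = U.ρ k σ x + ℓ • U.ρ k σ⁻¹ x := by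
  have h := U.eichlerShimura k ℓ hℓ hℓS σ hσ (U.ρ k σ⁻¹ x)
  have e1 : U.ρ k σ (U.ρ k σ⁻¹ x) = x := by
    rw [← Module.End.mul_apply, ← map_mul, mul_inv_cancel, map_one, Module.End.one_apply]
  rw [e1] at h
  have h2 : U.ρ k σ x + ℓ • U.ρ k σ⁻¹ x - (MvPolynomial.X ℓ : HA) • x = 0 := by
    rw [← h]; abel
  exact (sub_eq_zero.1 h2).symm

theorem C_smul_eq_zsmul {W : Type*} [AddCommGroup W] [Module HA W] (a : ℤ) (x : W) :
    (MvPolynomial.C a : HA) • x = a • x := by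
  rw [show (MvPolynomial.C a : HA) = ((a : ℤ) : HA) from eq_intCast MvPolynomial.C a,
    Int.cast_smul_eq_zsmul]

end Glue

open Glue

/-- An additive map between layers of two universal towers (same `p`, `S`) which commutes with the
Galois actions is `ℤ[X_ℓ]`-linear, provided the bad `X_ℓ` act as zero: at the good `ℓ` the
Eichler-Shimura relation gives `X_ℓ = σ + ℓ σ⁻¹` for a Frobenius lift `σ`
(`Lib.Frobenius.exists_liesOverPrime_isFrobeniusAt`). -/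
theorem map_smul_of_equivariant {N N' p : ℕ} [NeZero N] [NeZero N'] {S : Finset ℕ}
    (U : UTower N p S) (U' : UTower N' p S) (k : ℕ)
    (hbad : ∀ ℓ : ℕ, ¬ (ℓ.Prime ∧ ℓ ∉ S) → ∀ w : U.W k, (MvPolynomial.X ℓ : HA) • w = 0)
    (hbad' : ∀ ℓ : ℕ, ¬ (ℓ.Prime ∧ ℓ ∉ S) → ∀ w : U'.W k, (MvPolynomial.X ℓ : HA) • w = 0)
    (f : U.W k →+ U'.W k) (hf : ∀ (σ : GQ) (x : U.W k), f (U.ρ k σ x) = U'.ρ k σ (f x))
    (P : HA) (x : U.W k) : f (P • x) = P • f x := by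
  induction P using MvPolynomial.induction_on generalizing x with
  | C a => rw [C_smul_eq_zsmul, C_smul_eq_zsmul, map_zsmul]
  | add P Q hP hQ => rw [add_smul, add_smul, map_add, hP, hQ]
  | mul_X P ℓ hP =>
    rw [mul_smul, mul_smul, hP]
    congr 1
    by_cases h : ℓ.Prime ∧ ℓ ∉ S
    · obtain ⟨A, σ, hA, hσ⟩ := Lib.Frobenius.exists_liesOverPrime_isFrobeniusAt ℓ h.1
      have hF : IsFrob σ ℓ := ⟨A, hA, hσ⟩
      rw [X_smul_eq_of_isFrob U k h.1 h.2 hF, X_smul_eq_of_isFrob U' k h.1 h.2 hF, map_add,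
        map_nsmul, hf, hf]
    · rw [hbad ℓ h, hbad' ℓ h, map_zero]

namespace Glue

theorem aeval_heckeFun_eq_polyHom (N : ℕ) [NeZero N] (S : Finset ℕ) (P : HA) :
    MvPolynomial.aeval (heckeFun N S) P = Lib.HeckeHom.polyHom N (↑S : Set ℕ) P := by
  have : heckeFun N S = Lib.HeckeHom.tOf N (↑S : Set ℕ) := by
    funext ℓ
    by_cases h : ℓ.Prime ∧ ¬ ℓ ∣ N ∧ ℓ ∉ (↑S : Set ℕ)
    · rw [heckeFun_eq h.1 h.2.1 h.2.2, Lib.HeckeHom.tOf_eq N _ h.1 h.2.1 h.2.2]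
    · unfold heckeFun Lib.HeckeHom.tOf
      rw [dif_neg h, dif_neg h]
  rw [this]
  rfl

end Glue

open Glue

/-- In the tower `utowerOfKummer` a polynomial which vanishes in the Hecke algebra acts as zero. -/
theorem smul_eq_zero_of_aeval_eq_zero {N p : ℕ} [NeZero N] (hp : p.Prime) (S : Finset ℕ)
    (hNS : ∀ q : ℕ, q.Prime → q ∣ N → q ∈ S) (hpS : p ∈ S) (D : ∀ k : ℕ, KummerLevel N (p ^ k))
    (P : HA) (hP : MvPolynomial.aeval (heckeFun N S) P = 0) (k : ℕ)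
    (w : (utowerOfKummer hp S hNS hpS D).W k) : P • w = 0 := by
  have h3 : Lib.HeckeHom.polyHom N (↑S : Set ℕ) P = 0 := by
    rw [← aeval_heckeFun_eq_polyHom]; exact hP
  have h4 : P • w = Lib.HeckeHom.actMod N (↑S : Set ℕ) (p ^ k)
      (Lib.HeckeHom.polyHom N (↑S : Set ℕ) P) w := rfl
  rw [h4, h3, map_zero]
  rfl

namespace Glue

section Tower

variable {N p : ℕ} [NeZero N] (hp : p.Prime) (S : Finset ℕ)
  (hNS : ∀ q : ℕ, q.Prime → q ∣ N → q ∈ S) (hpS : p ∈ S) (D : ∀ k : ℕ, KummerLevel N (p ^ k))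

/-- The comparison between the Kummer model and the layer of the universal tower. -/
def phiOf (k : ℕ) (e : (D k).W ≃+ E.W N (p ^ k)) :
    E.W N (p ^ k) ≃+ (utowerOfKummer hp S hNS hpS D).W k :=
  e.symm.trans (D k).mult

theorem phiOf_apply (k : ℕ) (e : (D k).W ≃+ E.W N (p ^ k)) (x : E.W N (p ^ k)) :
    phiOf hp S hNS hpS D k e x = (D k).mult (e.symm x) := rfl

theorem rho_mult (k : ℕ) (σ : GQ) (y : (D k).W) :
    (utowerOfKummer hp S hNS hpS D).ρ k σ ((D k).mult y) = (D k).mult ((D k).ρ σ y) :=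
  (LayerData.ofKummerLevel (D k)).r_mult σ y

theorem phiOf_rho (k : ℕ) (e : (D k).W ≃+ E.W N (p ^ k))
    (he : ∀ (σ : GQ) (w : (D k).W), e ((D k).ρ σ w) = E.rho N (p ^ k) σ (e w))
    (σ : GQ) (x : E.W N (p ^ k)) :
    phiOf hp S hNS hpS D k e (E.rho N (p ^ k) σ x) =
      (utowerOfKummer hp S hNS hpS D).ρ k σ (phiOf hp S hNS hpS D k e x) := by
  rw [phiOf_apply, phiOf_apply, rho_mult]
  congr 1
  rw [AddEquiv.symm_apply_eq, he, AddEquiv.apply_symm_apply]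

theorem X_smul_phiOf (k : ℕ) (e : (D k).W ≃+ E.W N (p ^ k)) {ℓ : ℕ} [NeZero ℓ] (hℓ : ℓ.Prime)
    (hℓN : ¬ ℓ ∣ N) (hℓS : ℓ ∉ S) (H : E.HeckeOp N ℓ)
    (hH : ∀ w : (D k).W, e ((D k).T ℓ w) = H.TW (p ^ k) (e w)) (x : E.W N (p ^ k)) :
    (MvPolynomial.X ℓ : HA) • phiOf hp S hNS hpS D k e x =
      phiOf hp S hNS hpS D k e (H.TW (p ^ k) x) := by
  have hℓS' : ℓ ∉ (↑S : Set ℕ) := fun h => hℓS (Finset.mem_coe.mp h)
  have h1 := (LayerData.ofKummerLevel (D k)).X_smul_mult S hℓ hℓN hℓS' (e.symm x)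
  rw [phiOf_apply, phiOf_apply]
  refine h1.trans ?_
  show (D k).mult ((D k).T ℓ (e.symm x)) = _
  congr 1
  rw [AddEquiv.eq_symm_apply, hH, AddEquiv.apply_symm_apply]

theorem X_smul_eq_zero_of_bad (k : ℕ) {ℓ : ℕ} (h : ¬ (ℓ.Prime ∧ ¬ ℓ ∣ N ∧ ℓ ∉ S))
    (w : (utowerOfKummer hp S hNS hpS D).W k) : (MvPolynomial.X ℓ : HA) • w = 0 :=
  X_smul_of_bad S (n := p ^ k) (fun h' => h ⟨h'.1, h'.2.1, fun h'' => h'.2.2 (Finset.mem_coe.2 h'')⟩) w

end Tower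

/-- `IsKinf` as a subgroup. -/
def kinfSub (A : ValuationSubring Kbar) (N n : ℕ) : AddSubgroup (E.W N n) where
  carrier := {x | IsKinf A x}
  zero_mem' := IsKinf.zero
  add_mem' := IsKinf.add
  neg_mem' := IsKinf.neg

theorem isKinf_zsmul {A : ValuationSubring Kbar} {N n : ℕ} {x : E.W N n} (hx : IsKinf A x)
    (a : ℤ) : IsKinf A (a • x) :=
  (kinfSub A N n).zsmul_mem hx a

/-- Hecke polynomials preserve `K_∞`. -/
theorem isKinf_symm_smul {N p : ℕ} [NeZero N] (hp : p.Prime) (S : Finset ℕ)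
    (hNS : ∀ q : ℕ, q.Prime → q ∣ N → q ∈ S) (hpS : p ∈ S) (D : ∀ k : ℕ, KummerLevel N (p ^ k))
    (k : ℕ) (e : (D k).W ≃+ E.W N (p ^ k))
    (hT : ∀ (ℓ : ℕ) [NeZero ℓ], ℓ.Prime → ¬ ℓ ∣ N →
      ∃ H : E.HeckeOp N ℓ, ∀ w : (D k).W, e ((D k).T ℓ w) = H.TW (p ^ k) (e w))
    {A : ValuationSubring Kbar} {q : ℕ} (hq : q.Prime) (hA : A.LiesOverPrime q) (Q : HA)
    (x : E.W N (p ^ k)) (hx : IsKinf A x) :
    IsKinf A ((phiOf hp S hNS hpS D k e).symm (Q • phiOf hp S hNS hpS D k e x)) := by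
  induction Q using MvPolynomial.induction_on generalizing x with
  | C a =>
    rw [C_smul_eq_zsmul, ← map_zsmul, AddEquiv.symm_apply_apply]
    exact isKinf_zsmul hx a
  | add Q R hQ hR =>
    rw [add_smul, map_add]
    exact (hQ x hx).add (hR x hx)
  | mul_X Q ℓ hQ =>
    rw [mul_smul]
    by_cases h : ℓ.Prime ∧ ¬ ℓ ∣ N ∧ ℓ ∉ S
    · have : NeZero ℓ := ⟨h.1.ne_zero⟩
      obtain ⟨H, hH⟩ := hT ℓ h.1 h.2.1
      rw [X_smul_phiOf hp S hNS hpS D k e h.1 h.2.1 h.2.2 H hH]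
      exact hQ _ (IsKinf.TW hq hA H hx)
    · rw [X_smul_eq_zero_of_bad hp S hNS hpS D k h, smul_zero, map_zero]
      exact IsKinf.zero

end Glue

open Glue

/-- **The Steinberg condition for the universal tower of level `M q`.** -/
theorem steinbergAt_utowerOfKummer {M q p : ℕ} [NeZero M] [NeZero q] (hp : p.Prime)
    (S : Finset ℕ) (hNS : ∀ r : ℕ, r.Prime → r ∣ M * q → r ∈ S) (hpS : p ∈ S)
    (hq : q.Prime) (hqp : q ≠ p)
    (D : ∀ k : ℕ, KummerLevel (M * q) (p ^ k)) (hD : ∀ k, IsModelT (D k))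
    (D' : ∀ k : ℕ, KummerLevel M (p ^ k)) (hD' : ∀ k, IsModelT (D' k))
    (AL : ALData M q) (d : ℕ)
    (hnod : ∀ A : ValuationSubring Kbar, A.LiesOverPrime q → ∀ k : ℕ,
      NOD1 AL A (p ^ k) d ∧ NOD2 AL A (p ^ k) d)
    (P : HA) (hP : MvPolynomial.aeval (heckeFun M S) P = 0) :
    S35.SteinbergAt (utowerOfKummer hp S hNS hpS D) q ((d : HA) * P) := by
  have hNS' : ∀ r : ℕ, r.Prime → r ∣ M → r ∈ S := fun r hr h => hNS r hr (Dvd.dvd.mul_right h q)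
  constructor
  · intro k A hA τ hτ τ' hτ' w
    have : NeZero (p ^ k) := ⟨pow_ne_zero _ hp.ne_zero⟩
    obtain ⟨e, he, -⟩ := hD k
    obtain ⟨x, rfl⟩ := (phiOf hp S hNS hpS D k e).surjective w
    have h0 := unipotent AL hq hA (hnod A hA k).1 τ τ' hτ hτ' x
    rw [← phiOf_rho hp S hNS hpS D k e he, ← map_sub, ← phiOf_rho hp S hNS hpS D k e he,
      ← map_sub, mul_comm (d : HA) P, mul_smul, Nat.cast_smul_eq_nsmul, ← map_nsmul, h0, map_zero,
      smul_zero]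
  · intro k A hA σ hσ w _
    have : NeZero (p ^ k) := ⟨pow_ne_zero _ hp.ne_zero⟩
    obtain ⟨e, he, hT⟩ := hD k
    obtain ⟨e', he', -⟩ := hD' k
    obtain ⟨x, rfl⟩ := (phiOf hp S hNS hpS D k e).surjective w
    set U := utowerOfKummer hp S hNS hpS D with hU
    set U' := utowerOfKummer hp S hNS' hpS D' with hU'
    set Φ := phiOf hp S hNS hpS D k e with hΦ
    set Φ' := phiOf hp S hNS' hpS D' k e' with hΦ'
    have hΦρ : ∀ (σ : GQ) x, Φ (E.rho (M * q) (p ^ k) σ x) = U.ρ k σ (Φ x) :=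
      phiOf_rho hp S hNS hpS D k e he
    have hΦ'ρ : ∀ (σ : GQ) x, Φ' (E.rho M (p ^ k) σ x) = U'.ρ k σ (Φ' x) :=
      phiOf_rho hp S hNS' hpS D' k e' he'
    have hbad : ∀ ℓ : ℕ, ¬ (ℓ.Prime ∧ ℓ ∉ S) → ∀ w : U.W k, (MvPolynomial.X ℓ : HA) • w = 0 :=
      fun ℓ h w => X_smul_eq_zero_of_bad hp S hNS hpS D k (fun h' => h ⟨h'.1, h'.2.2⟩) w
    have hbad' : ∀ ℓ : ℕ, ¬ (ℓ.Prime ∧ ℓ ∉ S) → ∀ w : U'.W k, (MvPolynomial.X ℓ : HA) • w = 0 :=
      fun ℓ h w => X_smul_eq_zero_of_bad hp S hNS' hpS D' k (fun h' => h ⟨h'.1, h'.2.2⟩) w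
    -- the operator `Pp`
    let sm : U.W k →+ U.W k := DistribSMul.toAddMonoidHom (U.W k) P
    have hsm : ∀ v, sm v = P • v := fun _ => rfl
    let Pp : E.W (M * q) (p ^ k) →+ E.W (M * q) (p ^ k) :=
      (Φ.symm.toAddMonoidHom.comp sm).comp Φ.toAddMonoidHom
    have hPp : ∀ x, Pp x = Φ.symm (P • Φ x) := fun _ => rfl
    have hPp' : ∀ x, Φ (Pp x) = P • Φ x := fun x => by rw [hPp, AddEquiv.apply_symm_apply]
    have h1 : ∀ y : E.W M (p ^ k), Pp (AL.alW (p ^ k) y) = 0 := by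
      intro y
      let f : U'.W k →+ U.W k :=
        (Φ.toAddMonoidHom.comp (AL.alW (p ^ k))).comp Φ'.symm.toAddMonoidHom
      have hf0 : ∀ v, f v = Φ (AL.alW (p ^ k) (Φ'.symm v)) := fun _ => rfl
      have hf : ∀ (σ : GQ) (v : U'.W k), f (U'.ρ k σ v) = U.ρ k σ (f v) := by
        intro σ v
        obtain ⟨z, rfl⟩ := Φ'.surjective v
        rw [← hΦ'ρ, hf0, hf0, AddEquiv.symm_apply_apply, AddEquiv.symm_apply_apply,
          ALData.alW_rho, hΦρ]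
      have h := map_smul_of_equivariant U' U k hbad' hbad f hf P (Φ' y)
      rw [smul_eq_zero_of_aeval_eq_zero hp S hNS' hpS D' P hP k, map_zero, hf0,
        AddEquiv.symm_apply_apply] at h
      rw [hPp, ← h, map_zero]
    have h2 : ∀ x, Pp (AL.wW (p ^ k) x) = AL.wW (p ^ k) (Pp x) := by
      intro x
      let f : U.W k →+ U.W k :=
        (Φ.toAddMonoidHom.comp (AL.wW (p ^ k))).comp Φ.symm.toAddMonoidHom
      have hf0 : ∀ v, f v = Φ (AL.wW (p ^ k) (Φ.symm v)) := fun _ => rfl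
      have hf : ∀ (σ : GQ) (v : U.W k), f (U.ρ k σ v) = U.ρ k σ (f v) := by
        intro σ v
        obtain ⟨z, rfl⟩ := Φ.surjective v
        rw [← hΦρ, hf0, hf0, AddEquiv.symm_apply_apply, AddEquiv.symm_apply_apply,
          ALData.wW_rho AL _ hq, hΦρ]
      have h := map_smul_of_equivariant U U k hbad hbad f hf P (Φ x)
      rw [hf0, hf0, AddEquiv.symm_apply_apply] at h
      apply Φ.injective
      rw [hPp', ← h, hPp]
    have h3 : ∀ x, Pp (E.rho (M * q) (p ^ k) σ x) = E.rho (M * q) (p ^ k) σ (Pp x) := by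
      intro x
      apply Φ.injective
      rw [hPp', hΦρ, hΦρ, hPp', map_smul]
    have h4 : ∀ x, IsKinf A x → IsKinf A (Pp x) := fun x hx =>
      isKinf_symm_smul hp S hNS hpS D k e hT hq hA P x hx
    have h0 := steinberg AL hq hA (hnod A hA k).2 σ hσ Pp h1 h2 h3 h4 x
    have hz : U.ρ k (σ ^ 4) (Φ x) - (q ^ 2 + 1) • U.ρ k (σ ^ 2) (Φ x) + (q ^ 2) • Φ x =
        Φ (E.rho (M * q) (p ^ k) (σ ^ 4) x - (q ^ 2 + 1) • E.rho (M * q) (p ^ k) (σ ^ 2) x +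
          (q ^ 2) • x) := by
      rw [map_add Φ, map_sub Φ, map_nsmul Φ, map_nsmul Φ, hΦρ, hΦρ]
    rw [hz, mul_smul, ← hPp', Nat.cast_smul_eq_nsmul, ← map_nsmul, h0, map_zero]

end Fermat.Agent.C1

end
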