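/-
Project C1 (S34 + S35), architect helper23.

`NodalTarget` : THE deliverable of the nodal core, in its weakest and most flexible form:
* `w` is ANY `Kbar`-algebra endomorphism of `FN (M * q)` exchanging `α` and `β` (there is exactly
  one, see `ALData.w_eq` / `FN_mul_induction`);
* the auxiliary constant `d` may depend on everything, it only has to be prime to `n`
  (`d = 1`, or a power of `q` coming from an auxiliary level when `q = 2, 3`).

`nod_of_target` : `NodalTarget` gives `NOD1 D A n 1` and `NOD2 D A n 1`.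
-/
import Fermat.Agent.C1.AL
import Fermat.Agent.C1.Red.Basic

set_option autoImplicit false

noncomputable section

namespace Fermat.Agent.C1

open ModularCurve AlgebraicCurve Fermat.Agent.S24 Fermat.Agent.S24.B Fermat.Agent.GAL
  Fermat.Agent.GAL.E

/-- **What the nodal core has to deliver.** -/
def NodalTarget : Prop :=
  ∀ (M q : ℕ) [NeZero M] [NeZero q], q.Prime → ¬ q ∣ M →
    ∀ w : FN (M * q) →ₐ[Kbar] FN (M * q),
      (∀ x : FN M, w (heckeAlphaBar Kbar M q x) = heckeBetaBar Kbar M q x) →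
      (∀ x : FN M, w (heckeBetaBar Kbar M q x) = heckeAlphaBar Kbar M q x) →
    ∀ A : ValuationSubring Kbar, A.LiesOverPrime q → ∀ n : ℕ, 0 < n → ¬ q ∣ n →
    ∀ u : FN (M * q), IsKum (M * q) n u → Cong1 A (M * q) u → Cong1 A (M * q) (w u) →
      ∃ d : ℕ, d.Coprime n ∧
        (∀ τ : GQ, τ ∈ A.inertiaSubgroupIn ℚ →
          ∃ v : FN (M * q), (galF (M * q) τ u) ^ d = u ^ d * v ^ n) ∧
        (∀ σ : GQ, A.IsFrobeniusAt σ q →
          ∃ v : FN (M * q), (galF (M * q) σ (galF (M * q) σ u)) ^ d = (u ^ (q ^ 2)) ^ d * v ^ n)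

/-- Removing an exponent prime to `n`. -/
theorem exists_eq_mul_pow_of_coprime {F : Type*} [Field F] {a b v : F} {d n : ℕ} (hn : 0 < n)
    (hdn : d.Coprime n) (ha : a ≠ 0) (hb : b ≠ 0) (h : a ^ d = b ^ d * v ^ n) :
    ∃ v' : F, a = b * v' ^ n := by
  rcases Nat.eq_or_lt_of_le (Nat.succ_le_of_lt hn) with h1 | h1
  · refine ⟨a / b, ?_⟩
    rw [← h1, pow_one, mul_div_cancel₀ _ hb]
  -- `d * x = 1 + n * y`
  obtain ⟨x, y, hxy⟩ : ∃ x y : ℕ, d * x = 1 + n * y := by
    obtain ⟨x, hx⟩ := Nat.exists_mul_mod_eq_one_of_coprime hdn h1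
    refine ⟨x, d * x / n, ?_⟩
    have := Nat.mod_add_div (d * x) n
    omega
  refine ⟨v ^ x * b ^ y / a ^ y, ?_⟩
  have h1 : a ^ (d * x) = b ^ (d * x) * v ^ (n * x) := by
    rw [pow_mul, h, mul_pow, ← pow_mul, ← pow_mul]
  rw [hxy, pow_add, pow_add, pow_one, pow_one] at h1
  have ha' : a ^ y ≠ 0 := pow_ne_zero _ ha
  rw [div_pow, mul_pow, ← pow_mul, ← pow_mul, ← pow_mul, mul_comm x n, mul_comm y n]
  have ha'' : a ^ (n * y) ≠ 0 := pow_ne_zero _ ha
  field_simp
  linear_combination h1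

theorem Cong1.ne_zero' {A : ValuationSubring Kbar} {N : ℕ} {u : FN N} (h : Cong1 A N u) :
    u ≠ 0 := by
  obtain ⟨P, Q, hP, hQ, h1, h2, rfl⟩ := h
  have key : ∀ (R : LaurentSeries A) (hR : incl A R ∈ modularFunctionFieldBar N),
      red A R ≠ 0 → (⟨incl A R, hR⟩ : FN N) ≠ 0 := by
    intro R hR hne h0
    exact incl_ne_zero_of_red_ne_zero hne (congrArg Subtype.val h0)
  exact div_ne_zero (key P hP (h1 ▸ h2)) (key Q hQ h2)

theorem nod_of_target (h : NodalTarget) {M q : ℕ} [NeZero M] [NeZero q] (hq : q.Prime)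
    (hqM : ¬ q ∣ M) (D : ALData M q) (A : ValuationSubring Kbar) (hA : A.LiesOverPrime q)
    (n : ℕ) (hn : 0 < n) (hqn : ¬ q ∣ n) : NOD1 D A n 1 ∧ NOD2 D A n 1 := by
  constructor
  · intro u hk h1 h2 τ hτ
    obtain ⟨d, hd, hI, -⟩ := h M q hq hqM D.w D.w_al D.w_be A hA n hn hqn u hk h1 h2
    obtain ⟨v, hv⟩ := hI τ hτ
    have hu : u ≠ 0 := h1.ne_zero'
    obtain ⟨v', hv'⟩ := exists_eq_mul_pow_of_coprime hn hd
      ((map_ne_zero_iff _ (galF (M * q) τ).injective).2 hu) hu hv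
    exact ⟨v', by rw [pow_one, pow_one]; exact hv'⟩
  · intro u hk h1 h2 σ hσ
    obtain ⟨d, hd, -, hF⟩ := h M q hq hqM D.w D.w_al D.w_be A hA n hn hqn u hk h1 h2
    obtain ⟨v, hv⟩ := hF σ hσ
    have hu : u ≠ 0 := h1.ne_zero'
    obtain ⟨v', hv'⟩ := exists_eq_mul_pow_of_coprime hn hd
      ((map_ne_zero_iff _ (galF (M * q) σ).injective).2
        ((map_ne_zero_iff _ (galF (M * q) σ).injective).2 hu)) (pow_ne_zero _ hu) hv
    exact ⟨v', by rw [pow_one, pow_one]; exact hv'⟩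

end Fermat.Agent.C1

end
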