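/-
Project C1 (S34 + S35), architect helper23: FINAL WIRING.

  `S34_of_target : NodalTarget → (frozen statement S34)`
  `S35_of_target : NodalTarget → (frozen statement S35)`

Everything else (cluster GAL, KL, S30, Atkin-Lehner data, old-killers, middle layer C1) is plugged in.
-/
import Fermat.Agent.C1.Target
import Fermat.Agent.C1.Glue
import Fermat.Agent.C1.Mod.Main
import Fermat.Agent.GAL.Mult.Final
import Fermat.Agent.S34.Statement
import Fermat.Agent.Lib.NewKill.Main
import Fermat.Agent.S31.FromTower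
import Fermat.Agent.S30

set_option autoImplicit false

noncomputable section

namespace Fermat.Agent.C1

open ModularCurve AlgebraicCurve Fermat.Agent.S24 Fermat.Agent.S24.B Fermat.Agent.GAL
  Fermat.Agent.GAL.E Fermat.Agent.S30 Polynomial

/-- The Kummer levels of the cluster GAL are the Kummer models, with their Hecke operators. -/
theorem modelTStatement : ModelTStatement := by
  intro N _ p hp k
  have hn : 0 < p ^ k := pow_pos hp.out.pos k
  obtain ⟨mult, hT⟩ := Mult.exists_multEquiv N (p ^ k) hn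
  refine ⟨E.kummerLevel klStatement N (p ^ k) hn (E.heckeFam N) mult
    (fun ℓ hℓ hℓN w => @hT ℓ ⟨hℓ.ne_zero⟩ hℓ hℓN _ w), AddEquiv.refl _, fun σ w => rfl, ?_⟩
  intro ℓ _ hℓ hℓN
  refine ⟨E.heckeFam N ℓ hℓ hℓN, fun w => ?_⟩
  show (E.kummerLevel klStatement N (p ^ k) hn (E.heckeFam N) mult _).T ℓ w = _
  unfold E.kummerLevel
  simp only
  rw [dif_pos ⟨hℓ, hℓN⟩]
  rfl

theorem modelStatement : S34.ModelStatement := by
  intro N _ p hp k
  obtain ⟨D, e, he, -⟩ := modelTStatement N p k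
  exact ⟨D, e, he⟩

theorem uniStatement_of_target (h : NodalTarget) : S34.UNIStatement := by
  intro N _ q hq hqN hq2 A hA n hqn
  obtain ⟨M, rfl⟩ := hqN
  have hM0 : M ≠ 0 := by
    rintro rfl
    exact (NeZero.ne (q * 0)) (mul_zero q)
  have : NeZero M := ⟨hM0⟩
  have : NeZero q := ⟨hq.ne_zero⟩
  have hqM : ¬ q ∣ M := by
    rintro ⟨M', rfl⟩
    exact hq2 ⟨M', by ring⟩
  have hn : 0 < n := Nat.pos_of_ne_zero (by rintro rfl; exact hqn (dvd_zero q))
  have : NeZero n := ⟨hn.ne'⟩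
  obtain ⟨D⟩ := nonempty_alData M q hq hqM
  have key : S34.UNI (M * q) A n := by
    intro τ hτ x
    have h1 := unipotent D hq hA (nod_of_target h hq hqM D A hA n hn hqn).1 τ τ hτ hτ x
    rw [one_smul, map_sub] at h1
    rw [← h1]
    abel
  rwa [mul_comm M q] at key

section S34

variable {p : ℕ} {N : ℕ} [NeZero N] {S : Finset ℕ}
  {𝒪 : Type} [CommRing 𝒪] [IsDomain 𝒪] [IsDiscreteValuationRing 𝒪]
  [IsAdicComplete (IsLocalRing.maximalIdeal 𝒪) 𝒪]
  {θ : CuspForm.heckeAlgebra N 2 (↑S : Set ℕ) →+* IsLocalRing.ResidueField 𝒪}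
  {T : Type} [CommRing T] [IsLocalRing T] [IsNoetherianRing T]
  [IsAdicComplete (IsLocalRing.maximalIdeal T) T] [Algebra 𝒪 T] [IsLocalHom (algebraMap 𝒪 T)]
  [Module.Finite 𝒪 T] [Module.Free 𝒪 T]

/-- **The frozen statement S34 from the nodal target.** -/
theorem S34_of_target (h : NodalTarget) (hp : p.Prime)
    (hp𝒪 : (p : 𝒪) ∈ IsLocalRing.maximalIdeal 𝒪) (hpS : p ∈ S)
    (hNS : ∀ q : ℕ, q.Prime → q ∣ N → q ∈ S)
    (H : CuspForm.HeckeGaloisRepDatum N (↑S : Set ℕ) 𝒪 θ T)
    (q : ℕ) (hq : q.Prime) (hqp : q ≠ p) (hqN : q ∣ N) (hq2 : ¬ q ^ 2 ∣ N) :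
    H.ρ.IsUnipotentOnInertiaAt q :=
  S34.result_of_statements modelStatement (uniStatement_of_target h) hp hp𝒪 hpS hNS H q hq hqp
    hqN hq2

end S34

/-- The Hecke trace congruences at all levels (from the universal towers). -/
theorem allTraceCongruences : Lib.NewKill.AllTraceCongruences := by
  intro N _ p hp S hpS hNS
  exact S31.heckeTraceCongruence_of_utower hpS hNS
    (utowerOfKummer hp.out S hNS hpS fun k => (modelTStatement N p k).choose)

/-- The Steinberg condition at `q ∥ N` for the tower of Kummer models. -/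
theorem steinbergAt_of_target (h : NodalTarget) {N p : ℕ} [NeZero N] (hp : p.Prime) (S : Finset ℕ)
    (hNS : ∀ r : ℕ, r.Prime → r ∣ N → r ∈ S) (hpS : p ∈ S)
    (D : ∀ k : ℕ, KummerLevel N (p ^ k)) (hD : ∀ k, IsModelT (D k))
    {q : ℕ} (hq : q.Prime) (hqp : q ≠ p) (M : ℕ) [NeZero M] (hN : N = M * q) (hqM : ¬ q ∣ M)
    (P : HA) (hP : MvPolynomial.aeval (heckeFun M S) P = 0) :
    S35.SteinbergAt (utowerOfKummer hp S hNS hpS D) q P := by
  subst hN
  have : NeZero q := ⟨hq.ne_zero⟩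
  have : Fact p.Prime := ⟨hp⟩
  obtain ⟨AL⟩ := nonempty_alData M q hq hqM
  have key := steinbergAt_utowerOfKummer hp S hNS hpS hq hqp D hD
    (fun k => (modelTStatement M p k).choose) (fun k => (modelTStatement M p k).choose_spec) AL 1
    (fun A hA k => nod_of_target h hq hqM AL A hA (p ^ k) (pow_pos hp.pos k) (fun hd =>
      hqp ((Nat.prime_dvd_prime_iff_eq hq hp).mp (hq.dvd_of_dvd_pow hd)))) P hP
  rwa [Nat.cast_one, one_mul] at key

/-- A ring homomorphism from an integral domain which is integral over `ℤ` to a ring of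
characteristic zero is injective. -/
theorem injective_of_isIntegral_int {R O : Type*} [CommRing R] [IsDomain R] [CommRing O]
    [CharZero O] [Algebra.IsIntegral ℤ R] (f : R →+* O) : Function.Injective f := by
  rw [RingHom.injective_iff_ker_eq_bot]
  apply Ideal.eq_bot_of_comap_eq_bot (R := ℤ)
  rw [eq_bot_iff]
  intro m hm
  rw [Ideal.mem_comap, RingHom.mem_ker, eq_intCast, map_intCast, Int.cast_eq_zero] at hm
  rw [hm]
  exact Ideal.zero_mem _

/-- **The frozen statement S35 from the nodal target.** -/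
theorem S35_of_target (h : NodalTarget)
    {M : ℕ} [NeZero M] {g : CuspForm (CongruenceSubgroup.Gamma0 M) 2} (hg : g.IsNewform)
    (lam : ℕ) [Fact lam.Prime]
    (S : Finset ℕ)
    (O' : Type) [CommRing O'] [IsDomain O'] [IsDiscreteValuationRing O']
    [IsAdicComplete (IsLocalRing.maximalIdeal O') O'] [Finite (IsLocalRing.ResidueField O')]
    [CharZero O'] (hlamO' : (lam : O') ∈ IsLocalRing.maximalIdeal O')
    (chig : CuspForm.heckeAlgebra M 2 (↑S : Set ℕ) →+* ℂ)
    (hchig : ∀ (ℓ : ℕ) (hℓ : ℓ.Prime) (hℓM : ¬ ℓ ∣ M) (hℓS : ℓ ∉ (↑S : Set ℕ)),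
      chig (CuspForm.heckeAlgebra.T hℓ hℓM hℓS) = ModularFormClass.qCoeff g ℓ)
    (iota : chig.range →+* O')
    (hlamS : lam ∈ S) (hMS : ∀ q : ℕ, q.Prime → q ∣ M → q ∈ S) :
    ∃ (O'' : Type) (_ : CommRing O'') (_ : IsDomain O'') (_ : IsDiscreteValuationRing O'')
      (_ : IsAdicComplete (IsLocalRing.maximalIdeal O'') O'')
      (_ : Finite (IsLocalRing.ResidueField O''))
      (_ : CharZero O'') (_ : Algebra O' O'') (_ : Module.Finite O' O'')
      (_ : IsLocalHom (algebraMap O' O'')),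
      Function.Injective (algebraMap O' O'') ∧
      ∃ ρ : GaloisRepAdic O'',
        (∀ (ℓ : ℕ) (hℓ : ℓ.Prime) (hℓM : ¬ ℓ ∣ M) (hℓS : ℓ ∉ (↑S : Set ℕ)),
          ∀ A : ValuationSubring (AlgebraicClosure ℚ), A.LiesOverPrime ℓ →
            ∀ σ : AlgebraicClosure ℚ ≃ₐ[ℚ] AlgebraicClosure ℚ, A.IsFrobeniusAt σ ℓ →
              LinearMap.charpoly (ρ.ρ σ) =
                X ^ 2 - C (algebraMap O' O'' ((iota.comp chig.rangeRestrict)
                  (CuspForm.heckeAlgebra.T hℓ hℓM hℓS))) * X + C ((ℓ : O''))) ∧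
        (∀ q : ℕ, q.Prime → q ≠ lam → q ∣ M → ¬ q ^ 2 ∣ M →
          ∀ A : ValuationSubring (AlgebraicClosure ℚ), A.LiesOverPrime q →
            ∀ σ : AlgebraicClosure ℚ ≃ₐ[ℚ] AlgebraicClosure ℚ, A.IsFrobeniusAt σ q →
              LinearMap.charpoly (ρ.ρ σ) = X ^ 2 - C ((q : O'') + 1) * X + C ((q : O'')) ∨
              LinearMap.charpoly (ρ.ρ σ) = X ^ 2 + C ((q : O'') + 1) * X + C ((q : O''))) := by
  have hlam : lam.Prime := Fact.out
  have hfin : Module.Finite ℤ (CuspForm.heckeAlgebra M 2 (↑S : Set ℕ)) := S22.result M 2 _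
  have hint : Algebra.IsIntegral ℤ chig.range := by
    refine ⟨fun y => ?_⟩
    obtain ⟨x, hx⟩ := chig.rangeRestrict_surjective y
    rw [← hx]
    exact (Algebra.IsIntegral.isIntegral (R := ℤ) x).map chig.rangeRestrict.toIntAlgHom
  have hinj : Function.Injective iota := injective_of_isIntegral_int iota
  refine S35.result_of_utower lam S O' hlamO' (iota.comp chig.rangeRestrict) hlamS hMS
    (S30.result lam M S hlamS hMS O' hlamO' (iota.comp chig.rangeRestrict))
    (utowerOfKummer hlam S hMS hlamS fun k => (modelTStatement M lam k).choose) ?_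
  intro q hq hqlam hqM hq2
  obtain ⟨M', hM'⟩ := hqM
  have hM'0 : M' ≠ 0 := by
    rintro rfl
    exact (NeZero.ne M) (by rw [hM', mul_zero])
  have : NeZero M' := ⟨hM'0⟩
  have hqM' : ¬ q ∣ M' := by
    rintro ⟨M'', rfl⟩
    exact hq2 ⟨M'', by rw [hM']; ring⟩
  obtain ⟨Q, hQ0, hQ1⟩ := Lib.NewKill.exists_oldKiller allTraceCongruences hg S chig hchig hMS M'
    ⟨q, by rw [hM', mul_comm]⟩ (by
      intro he
      have h1 : M' * 1 = M' * q := by rw [mul_one, mul_comm M' q, ← hM', he]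
      exact hq.one_lt.ne (Nat.eq_of_mul_eq_mul_left (Nat.pos_of_ne_zero hM'0) h1))
  refine ⟨Q, ?_, steinbergAt_of_target h hlam S hMS hlamS _
    (fun k => (modelTStatement M lam k).choose_spec) hq hqlam M' (by rw [hM', mul_comm]) hqM' Q hQ0⟩
  intro h0
  rw [RingHom.comp_apply] at h0
  have h1 := (map_eq_zero_iff iota hinj).1 h0
  exact hQ1 (congrArg Subtype.val h1)

end Fermat.Agent.C1

end
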