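/-
Project C1 (S34 + S35), file owner helper35.

Level change for the nodal target.  The base coordinates used by the nodal core exist at level `M`
only if `2 ∣ M` (when `q = 3`), resp. `3 ∣ M` (when `q = 2`).  `nodalTarget_of_special` removes
these two conditions: pass to the level `2 M` resp. `3 M` and take the norm down; the exponent is
multiplied by the degree `3` resp. `4`, a power of `q`, which is prime to `n`.
-/
import Fermat.Agent.C1.Target
import Fermat.Agent.C1.Mod.Main
import Fermat.Agent.GAL.KLLevel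

set_option autoImplicit false

noncomputable section

namespace Fermat.Agent.C1

open ModularCurve AlgebraicCurve Fermat.Agent.S24 Fermat.Agent.S24.B Fermat.Agent.GAL
  Fermat.Agent.GAL.E

/-- **The nodal target at the levels where a base coordinate exists.** -/
def NodalTargetSpecial : Prop :=
  ∀ (M q : ℕ) [NeZero M] [NeZero q], q.Prime → ¬ q ∣ M → (q = 3 → 2 ∣ M) → (q = 2 → 3 ∣ M) →
    ∀ w : FN (M * q) →ₐ[Kbar] FN (M * q),
      (∀ x : FN M, w (heckeAlphaBar Kbar M q x) = heckeBetaBar Kbar M q x) →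
      (∀ x : FN M, w (heckeBetaBar Kbar M q x) = heckeAlphaBar Kbar M q x) →
    ∀ A : ValuationSubring Kbar, A.LiesOverPrime q → ∀ n : ℕ, 0 < n → ¬ q ∣ n →
    ∀ u : FN (M * q), IsKum (M * q) n u → Cong1 A (M * q) u → Cong1 A (M * q) (w u) →
      ∃ d : ℕ, d.Coprime n ∧
        (∀ τ : GQ, τ ∈ A.inertiaSubgroupIn ℚ →
          ∃ v : FN (M * q), (galF (M * q) τ u) ^ d = u ^ d * v ^ n) ∧
        (∀ σ : GQ, A.IsFrobeniusAt σ q →
          ∃ v : FN (M * q), (galF (M * q) σ (galF (M * q) σ u)) ^ d = (u ^ (q ^ 2)) ^ d * v ^ n)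

namespace LevelChange

theorem finrank_pos {N N' : ℕ} (h : N ∣ N') [NeZero N] [NeZero N'] :
    letI := (levelIncl h).toRingHom.toAlgebra
    0 < Module.finrank (FN N) (FN N') := by
  let _ := (levelIncl h).toRingHom.toAlgebra
  have hfin := dedekindPsi_mul_finrank h
  rcases Nat.eq_zero_or_pos (Module.finrank (FN N) (FN N')) with h0 | h0
  · rw [h0, mul_zero] at hfin
    exact absurd hfin.symm (dedekindPsi_pos N').ne'
  · exact h0

theorem isIntegral_levelIncl {N N' : ℕ} (h : N ∣ N') [NeZero N] [NeZero N'] :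
    (levelIncl h).toRingHom.IsIntegral := by
  let _ := (levelIncl h).toRingHom.toAlgebra
  have : FiniteDimensional (FN N) (FN N') := Module.finite_of_finrank_pos (finrank_pos h)
  exact fun x => Algebra.IsIntegral.isIntegral (R := FN N) x

theorem cong1_levelIncl {N N' : ℕ} (h : N ∣ N') [NeZero N] [NeZero N']
    {A : ValuationSubring Kbar} {u : FN N} (hu : Cong1 A N u) : Cong1 A N' (levelIncl h u) := by
  obtain ⟨P, Q, hP, hQ, h1, h2, rfl⟩ := hu
  refine ⟨P, Q, FN_le h hP, FN_le h hQ, h1, h2, ?_⟩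
  rw [map_div₀, levelIncl_mk, levelIncl_mk]

theorem galF_levelIncl {N N' : ℕ} (h : N ∣ N') [NeZero N] [NeZero N'] (σ : GQ) (u : FN N) :
    galF N' σ (levelIncl h u) = levelIncl h (galF N σ u) := by
  apply Subtype.ext
  rw [coe_galF, coe_levelIncl, coe_levelIncl, coe_galF]

variable {M M' q : ℕ} [NeZero M] [NeZero M'] [NeZero q]

theorem levelIncl_al (h : M ∣ M') (h' : M * q ∣ M' * q) (x : FN M) :
    levelIncl h' (heckeAlphaBar Kbar M q x) = heckeAlphaBar Kbar M' q (levelIncl h x) := by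
  apply Subtype.ext
  rw [coe_levelIncl, coe_heckeAlphaBar, coe_heckeAlphaBar, coe_levelIncl]

theorem levelIncl_be (h : M ∣ M') (h' : M * q ∣ M' * q) (x : FN M) :
    levelIncl h' (heckeBetaBar Kbar M q x) = heckeBetaBar Kbar M' q (levelIncl h x) := by
  apply Subtype.ext
  rw [coe_levelIncl, coe_heckeBetaBar, coe_heckeBetaBar, coe_levelIncl]

theorem levelIncl_w (hq : q.Prime) (h : M ∣ M') (h' : M * q ∣ M' * q)
    (w : FN (M * q) →ₐ[Kbar] FN (M * q))
    (hw1 : ∀ x : FN M, w (heckeAlphaBar Kbar M q x) = heckeBetaBar Kbar M q x)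
    (hw2 : ∀ x : FN M, w (heckeBetaBar Kbar M q x) = heckeAlphaBar Kbar M q x)
    (w' : FN (M' * q) →ₐ[Kbar] FN (M' * q))
    (hw1' : ∀ x : FN M', w' (heckeAlphaBar Kbar M' q x) = heckeBetaBar Kbar M' q x)
    (hw2' : ∀ x : FN M', w' (heckeBetaBar Kbar M' q x) = heckeAlphaBar Kbar M' q x)
    (u : FN (M * q)) : levelIncl h' (w u) = w' (levelIncl h' u) := by
  refine FN_mul_induction (M := M) (q := q) hq
    (P := fun u => levelIncl h' (w u) = w' (levelIncl h' u)) ?_ ?_ ?_ ?_ ?_ ?_ u
  · intro x; rw [hw1, levelIncl_al h h', levelIncl_be h h', hw1']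
  · intro x; rw [hw2, levelIncl_al h h', levelIncl_be h h', hw2']
  · intro f g hf hg; rw [map_add, map_add, map_add, map_add, hf, hg]
  · intro f hf; rw [map_neg, map_neg, map_neg, map_neg, hf]
  · intro f g hf hg; rw [map_mul, map_mul, map_mul, map_mul, hf, hg]
  · intro f hf; rw [map_inv₀, map_inv₀, map_inv₀, map_inv₀, hf]

/-- Descent of a relation `a ^ d = b ^ d * v ^ n` along `F_N ⊆ F_N'`, by the norm. -/
theorem descend {N N' : ℕ} (h : N ∣ N') [NeZero N] [NeZero N'] {e : ℕ}
    (he : dedekindPsi N' = dedekindPsi N * e) {a b : FN N} {d n : ℕ} {v : FN N'}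
    (hv : (levelIncl h a) ^ d = (levelIncl h b) ^ d * v ^ n) :
    ∃ v' : FN N, a ^ (d * e) = b ^ (d * e) * v' ^ n := by
  let _ := (levelIncl h).toRingHom.toAlgebra
  have hfin := dedekindPsi_mul_finrank h
  have hdeg : Module.finrank (FN N) (FN N') = e := by
    rw [he] at hfin
    exact Nat.eq_of_mul_eq_mul_left (dedekindPsi_pos N) hfin
  have h1 : ∀ x : FN N, Algebra.norm (FN N) (levelIncl h x) = x ^ e := by
    intro x
    rw [← hdeg]
    exact Algebra.norm_algebraMap x
  refine ⟨Algebra.norm (FN N) v, ?_⟩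
  have h2 := congrArg (Algebra.norm (FN N)) hv
  rw [map_mul, map_pow, map_pow, map_pow, h1, h1] at h2
  rw [mul_comm d e, pow_mul, pow_mul]
  exact h2

/-- The level change, general form. -/
theorem target_of_dvd (hq : q.Prime) (h : M ∣ M') {e : ℕ}
    (he : dedekindPsi (M' * q) = dedekindPsi (M * q) * e)
    (w : FN (M * q) →ₐ[Kbar] FN (M * q))
    (hw1 : ∀ x : FN M, w (heckeAlphaBar Kbar M q x) = heckeBetaBar Kbar M q x)
    (hw2 : ∀ x : FN M, w (heckeBetaBar Kbar M q x) = heckeAlphaBar Kbar M q x)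
    (w' : FN (M' * q) →ₐ[Kbar] FN (M' * q))
    (hw1' : ∀ x : FN M', w' (heckeAlphaBar Kbar M' q x) = heckeBetaBar Kbar M' q x)
    (hw2' : ∀ x : FN M', w' (heckeBetaBar Kbar M' q x) = heckeAlphaBar Kbar M' q x)
    (A : ValuationSubring Kbar) (n : ℕ) (hen : e.Coprime n)
    (H : ∀ u : FN (M' * q), IsKum (M' * q) n u → Cong1 A (M' * q) u → Cong1 A (M' * q) (w' u) →
      ∃ d : ℕ, d.Coprime n ∧
        (∀ τ : GQ, τ ∈ A.inertiaSubgroupIn ℚ →
          ∃ v : FN (M' * q), (galF (M' * q) τ u) ^ d = u ^ d * v ^ n) ∧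
        (∀ σ : GQ, A.IsFrobeniusAt σ q →
          ∃ v : FN (M' * q),
            (galF (M' * q) σ (galF (M' * q) σ u)) ^ d = (u ^ (q ^ 2)) ^ d * v ^ n))
    (u : FN (M * q)) (hk : IsKum (M * q) n u) (h1 : Cong1 A (M * q) u)
    (h2 : Cong1 A (M * q) (w u)) :
    ∃ d : ℕ, d.Coprime n ∧
        (∀ τ : GQ, τ ∈ A.inertiaSubgroupIn ℚ →
          ∃ v : FN (M * q), (galF (M * q) τ u) ^ d = u ^ d * v ^ n) ∧
        (∀ σ : GQ, A.IsFrobeniusAt σ q →
          ∃ v : FN (M * q),
            (galF (M * q) σ (galF (M * q) σ u)) ^ d = (u ^ (q ^ 2)) ^ d * v ^ n) := by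
  have h' : M * q ∣ M' * q := Nat.mul_dvd_mul_right h q
  obtain ⟨d, hd, hI, hF⟩ := H (levelIncl h' u) (isKum_map _ (isIntegral_levelIncl h') hk)
    (cong1_levelIncl h' h1) (by
      rw [← levelIncl_w hq h h' w hw1 hw2 w' hw1' hw2']
      exact cong1_levelIncl h' h2)
  refine ⟨d * e, Nat.Coprime.mul_left hd hen, fun τ hτ => ?_, fun σ hσ => ?_⟩
  · obtain ⟨v, hv⟩ := hI τ hτ
    rw [galF_levelIncl] at hv
    exact descend h' he hv
  · obtain ⟨v, hv⟩ := hF σ hσ
    rw [galF_levelIncl, galF_levelIncl, ← map_pow (levelIncl h') u] at hv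
    exact descend h' he hv

end LevelChange

/-- **Level change**: the nodal target follows from the nodal target at the levels where a base
coordinate exists. -/
theorem nodalTarget_of_special (H : NodalTargetSpecial) : NodalTarget := by
  intro M q _ _ hq hqM w hw1 hw2 A hA n hn hqn u hk h1 h2
  by_cases h3 : q = 3
  · subst h3
    by_cases h2M : 2 ∣ M
    · exact H M 3 hq hqM (fun _ => h2M) (fun h => absurd h (by decide)) w hw1 hw2 A hA n hn hqn u
        hk h1 h2
    · have : NeZero (2 * M) := ⟨mul_ne_zero two_ne_zero (NeZero.ne M)⟩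
      have hqM' : ¬ 3 ∣ 2 * M := by
        intro h
        rcases (Nat.Prime.dvd_mul Nat.prime_three).1 h with h | h
        · exact absurd h (by decide)
        · exact hqM h
      obtain ⟨D'⟩ := nonempty_alData (2 * M) 3 hq hqM'
      have h2M3 : ¬ 2 ∣ M * 3 := by
        intro h
        rcases (Nat.Prime.dvd_mul Nat.prime_two).1 h with h | h
        · exact h2M h
        · exact absurd h (by decide)
      have : NeZero (M * 3) := ⟨mul_ne_zero (NeZero.ne M) three_ne_zero⟩
      refine LevelChange.target_of_dvd (M' := 2 * M) (e := 3) hq (Dvd.intro_left 2 rfl) ?_ w hw1 hw2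
        D'.w D'.w_al D'.w_be A n ((Nat.Prime.coprime_iff_not_dvd Nat.prime_three).2 hqn)
        (fun u' => H (2 * M) 3 hq hqM' (fun _ => Dvd.intro _ rfl) (fun h => absurd h (by decide))
          D'.w D'.w_al D'.w_be A hA n hn hqn u') u hk h1 h2
      rw [mul_assoc, S20.Combinatorics.dedekindPsi_mul_of_not_dvd (NeZero.ne (M * 3))
        Nat.prime_two h2M3, mul_comm]
  · by_cases h2 : q = 2
    · subst h2
      by_cases h3M : 3 ∣ M
      · exact H M 2 hq hqM (fun h => absurd h (by decide)) (fun _ => h3M) w hw1 hw2 A hA n hn hqn u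
          hk h1 ‹_›
      · have : NeZero (3 * M) := ⟨mul_ne_zero three_ne_zero (NeZero.ne M)⟩
        have hqM' : ¬ 2 ∣ 3 * M := by
          intro h
          rcases (Nat.Prime.dvd_mul Nat.prime_two).1 h with h | h
          · exact absurd h (by decide)
          · exact hqM h
        obtain ⟨D'⟩ := nonempty_alData (3 * M) 2 hq hqM'
        have h3M2 : ¬ 3 ∣ M * 2 := by
          intro h
          rcases (Nat.Prime.dvd_mul Nat.prime_three).1 h with h | h
          · exact h3M h
          · exact absurd h (by decide)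
        have : NeZero (M * 2) := ⟨mul_ne_zero (NeZero.ne M) two_ne_zero⟩
        have hc : Nat.Coprime 4 n :=
          Nat.Coprime.pow_left 2 ((Nat.Prime.coprime_iff_not_dvd Nat.prime_two).2 hqn)
        refine LevelChange.target_of_dvd (M' := 3 * M) (e := 4) hq (Dvd.intro_left 3 rfl) ?_ w hw1
          hw2 D'.w D'.w_al D'.w_be A n hc
          (fun u' => H (3 * M) 2 hq hqM' (fun h => absurd h (by decide)) (fun _ => Dvd.intro _ rfl)
            D'.w D'.w_al D'.w_be A hA n hn hqn u') u hk h1 ‹_›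
        rw [mul_assoc, S20.Combinatorics.dedekindPsi_mul_of_not_dvd (NeZero.ne (M * 2))
          Nat.prime_three h3M2, mul_comm]
    · exact H M q hq hqM (fun h => absurd h h3) (fun h => absurd h h2) w hw1 hw2 A hA n hn hqn u
        hk h1 ‹_›

end Fermat.Agent.C1

end
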